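import Fermat.Agent.GT.Abs.Basic
import Fermat.Agent.GS.Abs.Loc

/-! GT abstract part, file `Avoid`: prime avoidance and conductor. -/

set_option autoImplicit false

namespace Fermat.Agent.GT

open Fermat.Agent.GR.E Fermat.Agent.GS

variable {R : Type*} [CommRing R] [IsDomain R] [IsDiscreteValuationRing R]
variable {F : Type*} [Field F] [Algebra R F] {ι : Type*}
variable {ϖ : R} {𝒪 : ι → ValuationSubring F}

/-- An element of `C ∖ 𝔪` which vanishes on all the components which do not pass through `𝔪`. -/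
theorem exists_avoid [Finite ι] {C : Subalgebra R F} (hC : MultiChart ϖ 𝒪 C) (𝔪 : Ideal C)
    [𝔪.IsPrime] :
    ∃ y : C, y ∉ 𝔪 ∧ ∀ i, ¬ vertI (𝒪 i) C ≤ 𝔪 → (y : F) ∈ (𝒪 i).nonunits := by
  classical
  cases nonempty_fintype ι
  have hex : ∀ i, ∃ z : C, z ∉ 𝔪 ∧ (¬ vertI (𝒪 i) C ≤ 𝔪 → z ∈ vertI (𝒪 i) C) := by
    intro i
    by_cases h : vertI (𝒪 i) C ≤ 𝔪
    · exact ⟨1, fun h1 => (inferInstance : 𝔪.IsPrime).ne_top ((Ideal.eq_top_iff_one _).2 h1),
        fun h' => absurd h h'⟩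
    · obtain ⟨z, hz, hz'⟩ := SetLike.not_le_iff_exists.1 h
      exact ⟨z, hz', fun _ => hz⟩
  choose z hz hz' using hex
  refine ⟨∏ i, z i, ?_, fun i hi => ?_⟩
  · rw [Ideal.IsPrime.prod_mem_iff]
    rintro ⟨i, _, hi⟩
    exact hz i hi
  · rw [← mem_vertI (hC.le i)]
    exact Ideal.mem_of_dvd _ (Finset.dvd_prod_of_mem z (Finset.mem_univ i)) (hz' i hi)

/-- Conductor: for every component `i` through `𝔪` there are `y ∈ C`, vanishing on the other
components, and `N` such that every product of `N` elements of `𝔪` (in particular every `N`-th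
power) is `≡ y * r` on the `i`-th component, up to a denominator `s ∉ 𝔪`.
(`C ⧸ vertI (𝒪 i) C` is Dedekind, the image of `y` is nonzero by `sep`, so the image of `y`
generates, locally at `𝔪`, a power of the maximal ideal.) -/
theorem exists_conductor [Finite ι] {C : Subalgebra R F} (hC : MultiChart ϖ 𝒪 C) (𝔪 : Ideal C)
    (h𝔪 : 𝔪.IsMaximal) (i : ι) (hi : vertI (𝒪 i) C ≤ 𝔪) :
    ∃ y : C, (∀ j, j ≠ i → (y : F) ∈ (𝒪 j).nonunits) ∧ ∃ N : ℕ, ∀ x ∈ 𝔪 ^ N,
      ∃ r s : C, s ∉ 𝔪 ∧ ((s * x - y * r : C) : F) ∈ (𝒪 i).nonunits := by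
  classical
  cases nonempty_fintype ι
  have hded := hC.ded i
  have hprime : (vertI (𝒪 i) C).IsPrime := vertI_isPrime (hC.le i)
  have hex : ∀ j, ∃ z : C, z ∉ vertI (𝒪 i) C ∧ (j ≠ i → z ∈ vertI (𝒪 j) C) := by
    intro j
    by_cases h : j = i
    · exact ⟨1, fun h1 => hprime.ne_top ((Ideal.eq_top_iff_one _).2 h1), fun h' => absurd h h'⟩
    · obtain ⟨e, heC, hej, hei⟩ := hC.sep i j (Ne.symm h)
      refine ⟨⟨e, heC⟩, ?_, fun _ => ?_⟩
      · rw [mem_vertI (hC.le i)]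
        exact hei
      · rw [mem_vertI (hC.le j)]
        exact hej
  choose z hz hz' using hex
  set y : C := ∏ j, z j with hy
  have hyi : y ∉ vertI (𝒪 i) C := by
    rw [hy, Ideal.IsPrime.prod_mem_iff]
    rintro ⟨j, _, hj⟩
    exact hz j hj
  refine ⟨y, fun j hj => ?_, ?_⟩
  · rw [← mem_vertI (hC.le j)]
    exact Ideal.mem_of_dvd _ (Finset.dvd_prod_of_mem z (Finset.mem_univ j)) (hz' j hj)
  set mk := Ideal.Quotient.mk (vertI (𝒪 i) C) with hmk
  have hsurj : Function.Surjective mk := Ideal.Quotient.mk_surjective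
  set P : Ideal (C ⧸ vertI (𝒪 i) C) := 𝔪.map mk with hP
  have hPtop : P ≠ ⊤ := by
    intro htop
    have h1 : 𝔪 = ⊤ := by
      have := Ideal.comap_map_of_surjective mk hsurj 𝔪
      rw [← hP, htop, Ideal.comap_top] at this
      have hker : Ideal.comap mk ⊥ ≤ 𝔪 := by
        intro a ha
        rw [Ideal.mem_comap, Ideal.mem_bot, hmk, Ideal.Quotient.eq_zero_iff_mem] at ha
        exact hi ha
      rw [sup_eq_left.2 hker] at this
      exact this.symm
    exact h𝔪.ne_top h1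
  have hI0 : Ideal.span {mk y} ≠ 0 := by
    rw [Ne, Ideal.zero_eq_bot, Ideal.span_singleton_eq_bot, hmk, Ideal.Quotient.eq_zero_iff_mem]
    exact hyi
  have hPu : ¬ IsUnit P := by rwa [Ideal.isUnit_iff]
  have hfin : FiniteMultiplicity P (Ideal.span {mk y}) :=
    FiniteMultiplicity.of_not_isUnit (α := Ideal (C ⧸ vertI (𝒪 i) C)) hPu hI0
  obtain ⟨a, ha, hPa⟩ := hfin.exists_eq_pow_mul_and_not_dvd
  rw [Ideal.dvd_iff_le] at hPa
  obtain ⟨sbar, hsa, hsP⟩ := SetLike.not_le_iff_exists.1 hPa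
  obtain ⟨s, rfl⟩ := hsurj sbar
  refine ⟨multiplicity P (Ideal.span {mk y}), fun x hx => ?_⟩
  have hx' : mk x ∈ P ^ multiplicity P (Ideal.span {mk y}) := by
    rw [hP, ← Ideal.map_pow]
    exact Ideal.mem_map_of_mem _ hx
  have hmem : mk x * mk s ∈ Ideal.span {mk y} := by
    rw [ha]
    exact Ideal.mul_mem_mul hx' hsa
  obtain ⟨rbar, hr⟩ := Ideal.mem_span_singleton'.1 hmem
  obtain ⟨r, rfl⟩ := hsurj rbar
  refine ⟨r, s, fun hs => hsP (Ideal.mem_map_of_mem _ hs), ?_⟩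
  rw [← mem_vertI (hC.le i), ← Ideal.Quotient.eq_zero_iff_mem, ← hmk, map_sub, map_mul, map_mul,
    mul_comm (mk s), ← hr, mul_comm, sub_self]

end Fermat.Agent.GT
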