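import Fermat.Agent.GT.Abs.Defs
import Fermat.Agent.GR.E.Root
import Fermat.Agent.GR.E.E0

/-! GT abstract part, file `Basic`: elementary facts on `vertI`, `SatChartI`, `rootSet`. -/

set_option autoImplicit false

namespace Fermat.Agent.GT

open Fermat.Agent.GR.E Fermat.Agent.GS

variable {R : Type*} [CommRing R] [IsDomain R] [IsDiscreteValuationRing R]
variable {F : Type*} [Field F] [Algebra R F] {ι : Type*}
variable {ϖ : R} {𝒪 : ι → ValuationSubring F}

/-- the maximal ideal of `V` is an ideal of `V` -/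
theorem basic_mul_mem_nonunits {V : ValuationSubring F} {a y : F} (ha : a ∈ V)
    (hy : y ∈ V.nonunits) : a * y ∈ V.nonunits := by
  rw [ValuationSubring.mem_nonunits_iff] at hy ⊢
  rw [map_mul]
  calc V.valuation a * V.valuation y ≤ 1 * V.valuation y :=
        mul_le_mul_left ((V.valuation_le_one_iff a).2 ha) _
    _ = V.valuation y := one_mul _
    _ < 1 := hy

theorem mem_vertI {V : ValuationSubring F} {C : Subalgebra R F} (hle : ∀ x ∈ C, x ∈ V) (x : C) :
    x ∈ vertI V C ↔ (x : F) ∈ V.nonunits := by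
  constructor
  · intro hx
    refine Submodule.span_induction (p := fun (y : C) _ => (y : F) ∈ V.nonunits)
      (fun y hy => hy) ?_ ?_ ?_ hx
    · exact V.nonunits.zero_mem
    · intro y z _ _ hy hz
      exact V.nonunits.add_mem hy hz
    · intro a y _ hy
      exact basic_mul_mem_nonunits (hle _ a.2) hy
  · intro hx
    exact Ideal.subset_span hx

theorem vertI_isPrime {V : ValuationSubring F} {C : Subalgebra R F} (hle : ∀ x ∈ C, x ∈ V) :
    (vertI V C).IsPrime := by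
  refine ⟨?_, ?_⟩
  · rw [Ideal.ne_top_iff_one, mem_vertI hle, ValuationSubring.mem_nonunits_iff]
    simp
  · intro x y hxy
    rw [mem_vertI hle] at hxy
    rw [mem_vertI hle, mem_vertI hle]
    rw [ValuationSubring.mem_nonunits_iff] at hxy ⊢
    rw [ValuationSubring.mem_nonunits_iff]
    by_contra hcon
    push Not at hcon
    obtain ⟨hx, hy⟩ := hcon
    have : (1 : V.ValueGroup) ≤ V.valuation ((x * y : C) : F) := by
      push_cast
      rw [map_mul]
      exact one_le_mul hx hy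
    exact absurd hxy (not_lt.2 this)

/-- `w ≡ 1` implies that `w` is a unit of `V`. -/
theorem unit_of_sub_one_mem {V : ValuationSubring F} {w : F} (hw : w - 1 ∈ V.nonunits) :
    w ∈ V ∧ w⁻¹ ∈ V ∧ w ≠ 0 := by
  have h1 : V.valuation w = 1 := by
    have h := V.valuation.map_add_eq_of_lt_right (x := w - 1) (y := 1)
      (by rw [map_one]; exact (ValuationSubring.mem_nonunits_iff V).1 hw)
    rwa [sub_add_cancel, map_one] at h
  refine ⟨(V.valuation_le_one_iff w).1 h1.le, (V.valuation_le_one_iff _).1 ?_, ?_⟩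
  · rw [map_inv₀, h1, inv_one]
  · rintro rfl
    rw [map_zero] at h1
    exact zero_ne_one h1

theorem SatChartI.sat_pow {C : Subalgebra R F} (hC : SatChartI ϖ 𝒪 C) (m : ℕ) {x : F}
    (hx : x ∈ C) (h : ∀ i, x / algebraMap R F ϖ ^ m ∈ 𝒪 i) : x / algebraMap R F ϖ ^ m ∈ C := by
  induction m with
  | zero => simpa using hx
  | succ m ih =>
    by_cases h0 : algebraMap R F ϖ = 0
    · rw [h0, zero_pow (Nat.succ_ne_zero m), div_zero]; exact C.zero_mem
    · have hϖ : ∀ i, algebraMap R F ϖ ∈ 𝒪 i := fun i => hC.le i _ (C.algebraMap_mem ϖ)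
      have e1 : x / algebraMap R F ϖ ^ m = x / algebraMap R F ϖ ^ (m + 1) * algebraMap R F ϖ := by
        rw [pow_succ]; field_simp
      have e2 : x / algebraMap R F ϖ ^ (m + 1) = x / algebraMap R F ϖ ^ m / algebraMap R F ϖ := by
        rw [pow_succ]; field_simp
      have h1 : x / algebraMap R F ϖ ^ m ∈ C :=
        ih (fun i => by rw [e1]; exact mul_mem (h i) (hϖ i))
      rw [e2]
      refine hC.sat _ h1 fun i => ?_
      rw [← e2]; exact h i

/-- `I(C) ⊆ 𝒪 i`. -/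
theorem rootSet_subsetI {C : Subalgebra R F} (hC : SatChartI ϖ 𝒪 C) {n : ℕ} (hn : 0 < n)
    {w a : F} (i : ι) (hw0 : w ≠ 0) (hw' : w⁻¹ ∈ 𝒪 i) (ha : a ∈ rootSet C n w) : a ∈ 𝒪 i := by
  have h1 : a ^ n ∈ 𝒪 i := by
    have : a ^ n = a ^ n * w * w⁻¹ := by field_simp
    rw [this]
    exact mul_mem (hC.le i _ ha) hw'
  rcases (𝒪 i).mem_or_inv_mem a with h | h
  · exact h
  · by_cases ha0 : a = 0
    · rw [ha0]; exact zero_mem (𝒪 i)
    · obtain ⟨k, rfl⟩ : ∃ k, n = k + 1 := ⟨n - 1, by omega⟩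
      have : a = a ^ (k + 1) * a⁻¹ ^ k := by
        rw [pow_succ, inv_pow]; field_simp
      rw [this]
      exact mul_mem h1 (pow_mem h _)

/-- `I(C) ∩ ϖ ^ m (⋂ 𝒪 i) = ϖ ^ m I(C)`. -/
theorem div_pow_mem_rootSetI {C : Subalgebra R F} (hC : SatChartI ϖ 𝒪 C) {n : ℕ} {w a : F}
    (hw : ∀ i, w ∈ 𝒪 i) (m : ℕ) (ha : a ∈ rootSet C n w)
    (h : ∀ i, a / algebraMap R F ϖ ^ m ∈ 𝒪 i) : a / algebraMap R F ϖ ^ m ∈ rootSet C n w := by
  have e : (a / algebraMap R F ϖ ^ m) ^ n * w = a ^ n * w / algebraMap R F ϖ ^ (m * n) := by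
    rw [div_pow, ← pow_mul]; ring
  change (a / algebraMap R F ϖ ^ m) ^ n * w ∈ C
  rw [e]
  refine hC.sat_pow (m * n) ha fun i => ?_
  rw [← e]; exact mul_mem (pow_mem (h i) n) (hw i)

/-- A prime ideal containing `ϖ` contains one of the vertical primes
(if `x i ∈ vertI (𝒪 i) C ∖ 𝔪` for all `i` then `(∏ x i) ^ e / ϖ ∈ C` by `nilp` and `sat`). -/
theorem exists_vertI_le [Finite ι] (hV : VertFam ϖ 𝒪) {C : Subalgebra R F}
    (hC : SatChartI ϖ 𝒪 C) (𝔪 : Ideal C) [𝔪.IsPrime] (hϖ𝔪 : algebraMap R C ϖ ∈ 𝔪) :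
    ∃ i, vertI (𝒪 i) C ≤ 𝔪 := by
  classical
  cases nonempty_fintype ι
  by_contra hcon
  push Not at hcon
  have hx : ∀ i, ∃ x : C, x ∈ vertI (𝒪 i) C ∧ x ∉ 𝔪 := fun i => SetLike.not_le_iff_exists.1 (hcon i)
  choose x hxv hxm using hx
  set y : C := ∏ i, x i with hy
  have hy𝔪 : y ∉ 𝔪 := by
    intro h
    obtain ⟨i, -, hi⟩ := Ideal.IsPrime.prod_mem_iff.1 h
    exact hxm i hi
  have hyv : ∀ i, (y : F) ∈ (𝒪 i).nonunits := by
    intro i
    rw [← mem_vertI (hC.le i)]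
    rw [hy, ← Finset.mul_prod_erase Finset.univ x (Finset.mem_univ i)]
    exact Ideal.mul_mem_right _ _ (hxv i)
  obtain ⟨e, he⟩ := hV.nilp
  have h1 : (y : F) ^ e / algebraMap R F ϖ ∈ C :=
    hC.sat _ (C.pow_mem y.2 e) fun i => he i _ (hyv i)
  have h2 : y ^ e = algebraMap R C ϖ * ⟨_, h1⟩ := by
    apply Subtype.ext
    have := hV.ne_zero
    change (y : F) ^ e = algebraMap R F ϖ * ((y : F) ^ e / algebraMap R F ϖ)
    field_simp
  have h3 : y ^ e ∈ 𝔪 := by
    rw [h2]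
    exact Ideal.mul_mem_right _ _ hϖ𝔪
  exact hy𝔪 (Ideal.IsPrime.mem_of_pow_mem inferInstance e h3)

/-- The overlap chart is saturated (copy of `GR.E.satChart_mid`). -/
theorem satChartI_mid {h : F} (hh : ∀ i, h ∈ 𝒪 i) (hh' : ∀ i, h⁻¹ ∈ 𝒪 i) (h0 : h ≠ 0)
    (hC : SatChartI ϖ 𝒪 (chart R ({h} : Set F))) :
    SatChartI ϖ 𝒪 (chart R ({h, h⁻¹} : Set F)) := by
  have key : ∀ x ∈ chart R ({h, h⁻¹} : Set F), ∃ k : ℕ, h ^ k * x ∈ chart R ({h} : Set F) := by
    intro x hx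
    have hx' : x ∈ chart R (insert h⁻¹ ({h} : Set F)) := by
      rw [show insert h⁻¹ ({h} : Set F) = {h, h⁻¹} from Set.pair_comm _ _]
      exact hx
    exact exists_pow_mul_mem_chart (Set.mem_singleton _) h0 hx'
  have hle : chart R ({h} : Set F) ≤ chart R ({h, h⁻¹} : Set F) :=
    chart_mono (Set.singleton_subset_iff.mpr (Set.mem_insert _ _))
  have hinv : h⁻¹ ∈ chart R ({h, h⁻¹} : Set F) :=
    subset_chart _ (Set.mem_insert_of_mem _ rfl)
  refine ⟨?_, ?_, chart_closed _⟩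
  · intro i x hx
    obtain ⟨k, hk⟩ := key x hx
    have h1 : h ^ k * x ∈ 𝒪 i := hC.le i _ hk
    have h2 : x = h⁻¹ ^ k * (h ^ k * x) := by
      rw [← mul_assoc, ← mul_pow, inv_mul_cancel₀ h0, one_pow, one_mul]
    rw [h2]
    exact mul_mem (pow_mem (hh' i) k) h1
  · intro x hx hxo
    obtain ⟨k, hk⟩ := key x hx
    have h1 : ∀ i, h ^ k * x / algebraMap R F ϖ ∈ 𝒪 i := by
      intro i
      rw [mul_div_assoc]
      exact mul_mem (pow_mem (hh i) k) (hxo i)
    have h2 := hle (hC.sat _ hk h1)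
    have h3 : x / algebraMap R F ϖ = h⁻¹ ^ k * (h ^ k * x / algebraMap R F ϖ) := by
      rw [mul_div_assoc, ← mul_assoc, ← mul_pow, inv_mul_cancel₀ h0, one_pow, one_mul]
    rw [h3]
    exact mul_mem (pow_mem hinv k) h2

end Fermat.Agent.GT
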