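import Fermat.Agent.GT.Abs.Zeta

/-! GT abstract part, file `Diff`. -/

set_option autoImplicit false

namespace Fermat.Agent.GT

open Fermat.Agent.GR.E Fermat.Agent.GS

section aux

variable {F : Type*} [Field F] {Γ : Type*} [LinearOrderedCommGroupWithZero Γ]

lemma Diff_le_one_of_cong (v : Valuation F Γ) {a z : F} (h : v (a - z) < 1) (hz : v z ≤ 1) :
    v a ≤ 1 := by
  have : a = (a - z) + z := by ring
  rw [this]
  exact (v.map_add _ _).trans (max_le h.le hz)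

lemma Diff_cong_mul (v : Valuation F Γ) {a b z y : F} (ha : v (a - z) < 1) (hb : v (b - y) < 1)
    (hz : v z ≤ 1) (hy : v y ≤ 1) : v (a * b - z * y) < 1 := by
  have hb1 : v b ≤ 1 := Diff_le_one_of_cong v hb hy
  have : a * b - z * y = (a - z) * b + z * (b - y) := by ring
  rw [this]
  refine v.map_add_lt ?_ ?_
  · rw [map_mul]
    exact mul_lt_one_of_lt_of_le ha hb1
  · rw [map_mul]
    exact mul_lt_one_of_nonneg_of_lt_one_right hz zero_le hb

lemma Diff_cong_pow (v : Valuation F Γ) {a z : F} (ha : v (a - z) < 1) (hz : v z ≤ 1) (k : ℕ) :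
    v (a ^ k - z ^ k) < 1 := by
  induction k with
  | zero => simp
  | succ k ih =>
    rw [pow_succ, pow_succ]
    exact Diff_cong_mul v ih ha (by rw [map_pow]; exact pow_le_one' hz k) hz

lemma Diff_geom (v : Valuation F Γ) {a b z : F} (ha : v (a - z) < 1) (hb : v (b - z) < 1)
    (hz : v z ≤ 1) {n : ℕ} (hn : 0 < n) :
    v ((∑ i ∈ Finset.range n, a ^ i * b ^ (n - 1 - i)) - (n : F) * z ^ (n - 1)) < 1 := by
  have h1 : (n : F) * z ^ (n - 1) = ∑ i ∈ Finset.range n, z ^ i * z ^ (n - 1 - i) := by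
    rw [Finset.sum_congr rfl (g := fun _ => z ^ (n - 1))]
    · rw [Finset.sum_const, Finset.card_range, nsmul_eq_mul]
    · intro i hi
      rw [← pow_add]
      congr 1
      have := Finset.mem_range.mp hi
      omega
  rw [h1, ← Finset.sum_sub_distrib]
  refine v.map_sum_lt one_ne_zero fun i _ => ?_
  exact Diff_cong_mul v (Diff_cong_pow v ha hz i) (Diff_cong_pow v hb hz _)
    (by rw [map_pow]; exact pow_le_one' hz i) (by rw [map_pow]; exact pow_le_one' hz _)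

end aux

variable {R : Type*} [CommRing R] [IsDomain R] [IsDiscreteValuationRing R]
variable {F : Type*} [Field F] [Algebra R F] {ι : Type*}
variable {ϖ : R} {𝒪 : ι → ValuationSubring F}

/-- Comparison on the overlap (analogue of `GR.E.sub_div_pow_mem_rootSet`).
In `𝒪 i`: `a₀ ^ n - a₁ ^ n = (a₀ - a₁) * s`, `s = ∑ a₀ ^ j a₁ ^ (n-1-j) ≡ n ζ i ^ (n-1)` a unit of
`𝒪 i`, and `(a₀ ^ n - a₁ ^ n) w ∈ ϖ ^ m C`, `w` a unit of `𝒪 i`.  So `(a₀ - a₁) / ϖ ^ m ∈ 𝒪 i` for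
all `i`; conclude with `rootSet_add`, `rootSet_neg`, `div_pow_mem_rootSetI`. -/
theorem sub_div_pow_mem_rootSetI (hV : VertFam ϖ 𝒪) {C : Subalgebra R F}
    (hC : SatChartI ϖ 𝒪 C) {n : ℕ} (hn : IsUnit (n : R)) {w : F}
    (hw : ∀ i, w - 1 ∈ (𝒪 i).nonunits) (ζ : ι → R) (hζ : ∀ i, ϖ ∣ ζ i ^ n - 1)
    {a₀ a₁ : F} {m : ℕ} (h₀ : a₀ ∈ rootSet C n w) (h₁ : a₁ ∈ rootSet C n w)
    (h₀ζ : ∀ i, a₀ - algebraMap R F (ζ i) ∈ (𝒪 i).nonunits)
    (h₁ζ : ∀ i, a₁ - algebraMap R F (ζ i) ∈ (𝒪 i).nonunits)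
    (h₀m : (a₀ ^ n * w - 1) / algebraMap R F ϖ ^ m ∈ C)
    (h₁m : (a₁ ^ n * w - 1) / algebraMap R F ϖ ^ m ∈ C) :
    (a₀ - a₁) / algebraMap R F ϖ ^ m ∈ rootSet C n w := by
  set P := algebraMap R F ϖ with hP
  have hP0 : P ≠ 0 := hV.ne_zero
  have hn0 : 0 < n := by
    rcases Nat.eq_zero_or_pos n with h | h
    · subst h
      simp at hn
    · exact h
  have hbroot : a₀ - a₁ ∈ rootSet C n w := by
    rw [sub_eq_add_neg]
    exact rootSet_add hC.closed hn0 h₀ (rootSet_neg h₁)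
  refine div_pow_mem_rootSetI hC (fun i => (unit_of_sub_one_mem (hw i)).1) m hbroot fun i => ?_
  obtain ⟨hwi, hwi', hw0⟩ := unit_of_sub_one_mem (hw i)
  have hRO : ∀ r : R, algebraMap R F r ∈ 𝒪 i := fun r => hC.le i _ (C.algebraMap_mem r)
  set v := (𝒪 i).valuation with hv
  set z := algebraMap R F (ζ i) with hz
  have hz1 : v z ≤ 1 := ((𝒪 i).valuation_le_one_iff z).mpr (hRO _)
  have ha : v (a₀ - z) < 1 := (𝒪 i).mem_nonunits_iff.mp (h₀ζ i)
  have hb : v (a₁ - z) < 1 := (𝒪 i).mem_nonunits_iff.mp (h₁ζ i)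
  set S := ∑ i ∈ Finset.range n, a₀ ^ i * a₁ ^ (n - 1 - i) with hS
  have hSn : v (S - (n : F) * z ^ (n - 1)) < 1 := Diff_geom v ha hb hz1 hn0
  obtain ⟨u, hu⟩ := hn
  have hzv : v z = 1 := zeta_valuation_eq_one hRO (hV.mem i) hn0 (hζ i)
  have hnz : v ((n : F) * z ^ (n - 1)) = 1 := by
    have e1 : (n : F) * algebraMap R F ((u⁻¹ : Rˣ) : R) = 1 := by
      rw [← map_natCast (algebraMap R F), ← hu, ← map_mul, Units.mul_inv, map_one]
    have hA : v (n : F) ≤ 1 := ((𝒪 i).valuation_le_one_iff _).mpr (natCast_mem _ n)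
    have hB : v (algebraMap R F ((u⁻¹ : Rˣ) : R)) ≤ 1 :=
      ((𝒪 i).valuation_le_one_iff _).mpr (hRO _)
    have hAB := congrArg v e1
    rw [map_mul, map_one] at hAB
    rw [map_mul, map_pow, hzv, one_pow, mul_one]
    refine le_antisymm hA ?_
    by_contra hlt
    rw [not_le] at hlt
    have := mul_lt_one_of_lt_of_le hlt hB
    rw [hAB] at this
    exact lt_irrefl _ this
  have hS1 : v S = 1 := by
    rw [← hnz]
    apply Valuation.map_eq_of_sub_lt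
    rw [hnz]
    exact hSn
  have hS0 : S ≠ 0 := by
    intro h0
    rw [h0, map_zero] at hS1
    exact zero_ne_one hS1
  have hSinv : S⁻¹ ∈ 𝒪 i := by
    rw [← (𝒪 i).valuation_le_one_iff, map_inv₀, ← hv, hS1, inv_one]
  have hgeom : S * (a₀ - a₁) = a₀ ^ n - a₁ ^ n := geom_sum₂_mul a₀ a₁ n
  have : (a₀ - a₁) / P ^ m =
      S⁻¹ * w⁻¹ * ((a₀ ^ n * w - 1) / P ^ m - (a₁ ^ n * w - 1) / P ^ m) := by
    have h2 : (a₀ ^ n * w - 1) / P ^ m - (a₁ ^ n * w - 1) / P ^ m =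
        S * (a₀ - a₁) * w / P ^ m := by
      rw [hgeom]
      ring
    rw [h2]
    field_simp
  rw [this]
  exact (𝒪 i).mul_mem _ _ ((𝒪 i).mul_mem _ _ hSinv hwi')
    ((𝒪 i).sub_mem (hC.le i _ h₀m) (hC.le i _ h₁m))

end Fermat.Agent.GT
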