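import Fermat.Agent.GT.Abs.One
import Fermat.Agent.GT.Abs.Diff
import Fermat.Agent.GR.E.E6b

/-! GT abstract part, file `Crux`: THE MULTI-COMPONENT CRUX (Cech part). -/

set_option autoImplicit false

namespace Fermat.Agent.GT

open Fermat.Agent.GR.E Fermat.Agent.GS

variable {R : Type*} [CommRing R] [IsDomain R] [IsDiscreteValuationRing R]
variable {F : Type*} [Field F] [Algebra R F] {ι : Type*}
variable {ϖ : R} {𝒪 : ι → ValuationSubring F}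

/-- Same Cech argument as `GR.E.crux_abstract` (copy its proof; `a ≠ 0` because `a ≡ ζ i` is a unit
of `𝒪 i`). -/
theorem multi_crux_of_glue [Nonempty ι] (hϖ : Irreducible ϖ) (hV : VertFam ϖ 𝒪)
    {h : F} (hh : ∀ i, h ∈ 𝒪 i) (hh' : ∀ i, h⁻¹ ∈ 𝒪 i) (h0 : h ≠ 0)
    (hC0 : SatChartI ϖ 𝒪 (chart R ({h} : Set F)))
    (hC1 : SatChartI ϖ 𝒪 (chart R ({h⁻¹} : Set F)))
    (hfrac : ∀ x : F, ∃ b ∈ chart R ({h} : Set F), b ≠ 0 ∧ x * b ∈ chart R ({h} : Set F))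
    (hfin : Module.Finite (Algebra.adjoin R ({h} : Set F))
      (integralClosure (Algebra.adjoin R ({h} : Set F)) F))
    {n : ℕ} (hn : IsUnit (n : R)) {w : F} (hw : ∀ i, w - 1 ∈ (𝒪 i).nonunits)
    (ζ : ι → R) (hζ : ∀ i, ϖ ∣ ζ i ^ n - 1)
    (hg0 : ∀ 𝔪 : Ideal (chart R ({h} : Set F)), 𝔪.IsMaximal → algebraMap R _ ϖ ∈ 𝔪 →
      GlueAtI 𝒪 ζ (chart R ({h} : Set F)) n w 𝔪)
    (hg1 : ∀ 𝔪 : Ideal (chart R ({h⁻¹} : Set F)), 𝔪.IsMaximal → algebraMap R _ ϖ ∈ 𝔪 →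
      GlueAtI 𝒪 ζ (chart R ({h⁻¹} : Set F)) n w 𝔪) :
    ∃ a : F, a ≠ 0 ∧ a ^ n * w ∈ chart R ({h} : Set F) ∧ a ^ n * w ∈ chart R ({h⁻¹} : Set F) := by
  have hn0 : 0 < n := by
    rcases Nat.eq_zero_or_pos n with rfl | hpos
    · simp at hn
    · exact hpos
  obtain ⟨i₀⟩ := ‹Nonempty ι›
  obtain ⟨-, hw', hw0⟩ := unit_of_sub_one_mem (hw i₀)
  set P : F := algebraMap R F ϖ with hP
  have hP0 : P ≠ 0 := hV.ne_zero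
  obtain ⟨m₀, hm₀⟩ := exists_bound_rootSet hϖ h0 hfin hfrac hn0 hw0
  obtain ⟨a₀, ha₀, ha₀', ha₀m⟩ := exists_one_powI hV hC0 hn hw ζ hζ hg0 (m₀ + 1)
  obtain ⟨a₁, ha₁, ha₁', ha₁m⟩ := exists_one_powI hV hC1 hn hw ζ hζ hg1 (m₀ + 1)
  have hmid : SatChartI ϖ 𝒪 (chart R ({h, h⁻¹} : Set F)) :=
    satChartI_mid hh hh' h0 hC0
  have hle0 : chart R ({h} : Set F) ≤ chart R ({h, h⁻¹} : Set F) :=
    chart_mono (by intro x hx; exact Or.inl hx)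
  have hle1 : chart R ({h⁻¹} : Set F) ≤ chart R ({h, h⁻¹} : Set F) :=
    chart_mono (by intro x hx; exact Or.inr hx)
  have hc : (a₀ - a₁) / P ^ (m₀ + 1) ∈ rootSet (chart R ({h, h⁻¹} : Set F)) n w :=
    sub_div_pow_mem_rootSetI hV hmid hn hw ζ hζ (hle0 ha₀) (hle1 ha₁) ha₀' ha₁'
      (hle0 ha₀m) (hle1 ha₁m)
  obtain ⟨b₀, hb₀, b₁, hb₁, hb⟩ := hm₀ _ hc (m₀ + 1)
    ⟨a₀, ha₀, -a₁, rootSet_neg ha₁, by
      rw [mul_div_cancel₀ _ (pow_ne_zero _ hP0)]; ring⟩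
  have hkey : a₀ - a₁ = P * (b₀ + b₁) := by
    rw [← hb, ← mul_assoc, ← pow_succ', mul_div_cancel₀ _ (pow_ne_zero _ hP0)]
  have hPC0 : P ∈ chart R ({h} : Set F) := (chart R ({h} : Set F)).algebraMap_mem ϖ
  have hPC1 : P ∈ chart R ({h⁻¹} : Set F) := (chart R ({h⁻¹} : Set F)).algebraMap_mem ϖ
  have hA0 : a₀ + -(P * b₀) ∈ rootSet (chart R ({h} : Set F)) n w :=
    rootSet_add hC0.closed hn0 ha₀ (rootSet_neg (rootSet_mul hPC0 hb₀))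
  have hA1 : a₁ + P * b₁ ∈ rootSet (chart R ({h⁻¹} : Set F)) n w :=
    rootSet_add hC1.closed hn0 ha₁ (rootSet_mul hPC1 hb₁)
  have heq : a₀ + -(P * b₀) = a₁ + P * b₁ := by linear_combination hkey
  refine ⟨a₀ + -(P * b₀), ?_, hA0, ?_⟩
  · intro hzero
    -- `ζ i₀ = (ζ i₀ - a₀) + P * b₀` would lie in the maximal ideal of `𝒪 i₀`
    have hb₀𝒪 : b₀ ∈ 𝒪 i₀ := rootSet_subsetI hC0 hn0 i₀ hw0 hw' hb₀
    -- work inside the local ring `𝒪 i₀`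
    have hmemI : ∀ x : F, x ∈ (𝒪 i₀).nonunits ↔
        ∃ hx : x ∈ 𝒪 i₀, (⟨x, hx⟩ : 𝒪 i₀) ∈ IsLocalRing.maximalIdeal (𝒪 i₀) :=
      fun x => ValuationSubring.mem_nonunits_iff_exists_mem_maximalIdeal
    obtain ⟨h1, h1'⟩ := (hmemI _).1 (ha₀' i₀)
    obtain ⟨h2, h2'⟩ := (hmemI _).1 (hV.mem i₀)
    have h3 : (⟨P, h2⟩ : 𝒪 i₀) * ⟨b₀, hb₀𝒪⟩ - ⟨a₀ - algebraMap R F (ζ i₀), h1⟩ ∈
        IsLocalRing.maximalIdeal (𝒪 i₀) :=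
      Ideal.sub_mem _ (Ideal.mul_mem_right _ _ h2') h1'
    have hζmem : algebraMap R F (ζ i₀) ∈ (𝒪 i₀).nonunits := by
      rw [hmemI]
      have hval : algebraMap R F (ζ i₀) = P * b₀ - (a₀ - algebraMap R F (ζ i₀)) := by
        linear_combination hzero
      have hmem : algebraMap R F (ζ i₀) ∈ 𝒪 i₀ := by
        rw [hval]; exact (𝒪 i₀).sub_mem ((𝒪 i₀).mul_mem _ _ h2 hb₀𝒪) h1
      refine ⟨hmem, ?_⟩
      have : (⟨algebraMap R F (ζ i₀), hmem⟩ : 𝒪 i₀) =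
          (⟨P, h2⟩ : 𝒪 i₀) * ⟨b₀, hb₀𝒪⟩ - ⟨a₀ - algebraMap R F (ζ i₀), h1⟩ :=
        Subtype.ext hval
      rw [this]; exact h3
    exact zeta_not_mem_nonunits (fun r => hC0.le i₀ _ (Subalgebra.algebraMap_mem _ r)) (hV.mem i₀)
      hn0 (hζ i₀) hζmem
  · rw [heq]
    exact hA1

end Fermat.Agent.GT
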