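import Fermat.Agent.GS.Abs.Defs

/-!
# Project GT, abstract part: definitions

`R` is a DVR with uniformizer `ϖ`, `F` a field which is an `R`-algebra (a function field over
`Frac R`), `𝒪 : ι → ValuationSubring F` the finite family of ALL vertical valuation rings
(the components of the special fibre).  `ϖ` is NOT supposed to be a uniformizer of `𝒪 i`
(components with multiplicity are allowed).  Congruences are modulo the maximal ideals
`(𝒪 i).nonunits`.
-/

set_option autoImplicit false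

namespace Fermat.Agent.GT

open Fermat.Agent.GR.E Fermat.Agent.GS

variable {R : Type*} [CommRing R] {F : Type*} [Field F] [Algebra R F] {ι : Type*}

/-- The vertical prime `{x ∈ C : x ∈ 𝔪(𝒪)}` of `C` (see `mem_vertI`). -/
def vertI (𝒪 : ValuationSubring F) (C : Subalgebra R F) : Ideal C :=
  Ideal.span {x : C | (x : F) ∈ 𝒪.nonunits}

/-- The family of vertical valuation rings. -/
structure VertFam (ϖ : R) (𝒪 : ι → ValuationSubring F) : Prop where
  ne_zero : algebraMap R F ϖ ≠ 0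
  mem : ∀ i, algebraMap R F ϖ ∈ (𝒪 i).nonunits
  nilp : ∃ e : ℕ, ∀ i, ∀ x ∈ (𝒪 i).nonunits, x ^ e / algebraMap R F ϖ ∈ 𝒪 i

/-- The chart conditions which are also needed on the overlap chart. -/
structure SatChartI (ϖ : R) (𝒪 : ι → ValuationSubring F) (C : Subalgebra R F) : Prop where
  le : ∀ i, ∀ x ∈ C, x ∈ 𝒪 i
  sat : ∀ x ∈ C, (∀ i, x / algebraMap R F ϖ ∈ 𝒪 i) → x / algebraMap R F ϖ ∈ C
  closed : ∀ x : F, IsIntegral C x → x ∈ C

/-- A chart all of whose (reduced) vertical components are normal. -/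
structure MultiChart (ϖ : R) (𝒪 : ι → ValuationSubring F) (C : Subalgebra R F) : Prop
    extends SatChartI ϖ 𝒪 C where
  noeth : IsNoetherianRing C
  frac : ∀ i, ∀ x ∈ 𝒪 i, ∃ b ∈ C, b ∉ (𝒪 i).nonunits ∧ x * b ∈ C
  ded : ∀ i, IsDedekindDomain (C ⧸ vertI (𝒪 i) C)
  sep : ∀ i j, i ≠ j → ∃ e ∈ C, e ∈ (𝒪 j).nonunits ∧ e ∉ (𝒪 i).nonunits

/-- Near `𝔪` the module `I(C) = rootSet C n w` contains an element which is congruent, on the
`i`-th component, to `ζ i * e` for one and the same `e ∈ C ∖ 𝔪`. -/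
def GlueAtI (𝒪 : ι → ValuationSubring F) (ζ : ι → R) (C : Subalgebra R F) (n : ℕ) (w : F)
    (𝔪 : Ideal C) : Prop :=
  ∃ b ∈ rootSet C n w, ∃ e : C, e ∉ 𝔪 ∧
    ∀ i, b - algebraMap R F (ζ i) * (e : F) ∈ (𝒪 i).nonunits

/-- `x` lies in the maximal ideal of `locAt C 𝔪`. -/
def InMaxLoc (C : Subalgebra R F) (𝔪 : Ideal C) (x : F) : Prop :=
  ∃ s t : C, s ∉ 𝔪 ∧ t ∈ 𝔪 ∧ x * (s : F) = (t : F)

/-- Local triviality with prescribed gluing constants at the closed point `𝔪`: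
`a ^ n * w` is a unit at `𝔪`, and the value at `𝔪` of the residue of `a` on the `i`-th component
is `ζ i * c`, for every component through `𝔪`. -/
def LocalTriv (𝒪 : ι → ValuationSubring F) (ζ : ι → R) (C : Subalgebra R F) (n : ℕ) (w : F)
    (𝔪 : Ideal C) [𝔪.IsPrime] : Prop :=
  ∃ a : F, a ^ n * w ∈ locAt C 𝔪 ∧ (a ^ n * w)⁻¹ ∈ locAt C 𝔪 ∧ ∃ c : C, c ∉ 𝔪 ∧
    ∀ i, vertI (𝒪 i) C ≤ 𝔪 → ∃ x ∈ locAt C 𝔪, a - x ∈ (𝒪 i).nonunits ∧
      InMaxLoc C 𝔪 (x - algebraMap R F (ζ i) * (c : F))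

end Fermat.Agent.GT
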