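import Fermat.Agent.GT.Abs.Avoid

/-! GT abstract part, file `Lift`: the local gluing lemma. -/

set_option autoImplicit false

namespace Fermat.Agent.GT

open Fermat.Agent.GR.E Fermat.Agent.GS

/-! ### Newton iteration in an abstract local ring -/

section Abstract

variable {B : Type*} [CommRing B] [IsLocalRing B]

theorem Lift_isUnit_of_sub_mem {a b : B} (hb : IsUnit b)
    (h : a - b ∈ IsLocalRing.maximalIdeal B) : IsUnit a := by
  by_contra hnu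
  have h1 : a ∈ IsLocalRing.maximalIdeal B := (IsLocalRing.mem_maximalIdeal _).2 hnu
  have h2 : b ∈ IsLocalRing.maximalIdeal B := by
    have := Ideal.sub_mem _ h1 h
    simpa using this
  exact (IsLocalRing.mem_maximalIdeal _).1 h2 hb

/-- Newton iteration. -/
theorem Lift_newton {n : ℕ} (hn : IsUnit (n : B)) {ε c : B} (hc : IsUnit c)
    (h : c ^ n - ε ∈ IsLocalRing.maximalIdeal B) (k : ℕ) :
    ∃ γ : B, γ - c ∈ IsLocalRing.maximalIdeal B ∧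
      γ ^ n - ε ∈ IsLocalRing.maximalIdeal B ^ (k + 1) := by
  induction k with
  | zero => exact ⟨c, by simp, by simpa using h⟩
  | succ k ih =>
    obtain ⟨γ, hγc, hγ⟩ := ih
    have hγu : IsUnit γ := Lift_isUnit_of_sub_mem hc hγc
    obtain ⟨v, hv⟩ := (hn.mul (hγu.pow (n - 1))).exists_right_inv
    obtain ⟨κ, hκ⟩ := Polynomial.powAddExpansion γ (-(γ ^ n - ε) * v) n
    have hγ1 : γ ^ n - ε ∈ IsLocalRing.maximalIdeal B :=
      Ideal.pow_le_self (Nat.succ_ne_zero k) hγ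
    refine ⟨γ + -(γ ^ n - ε) * v, ?_, ?_⟩
    · have : γ + -(γ ^ n - ε) * v - c = (γ - c) - (γ ^ n - ε) * v := by ring
      rw [this]
      exact Ideal.sub_mem _ hγc (Ideal.mul_mem_right _ _ hγ1)
    · have h1 : (γ + -(γ ^ n - ε) * v) ^ n - ε = κ * v ^ 2 * ((γ ^ n - ε) * (γ ^ n - ε)) := by
        rw [hκ]
        linear_combination (-(γ ^ n - ε)) * hv
      rw [h1, pow_succ]
      exact Ideal.mul_mem_left _ _ (Ideal.mul_mem_mul hγ hγ1)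

/-- Two `n`-th roots which are congruent modulo the maximal ideal. -/
theorem Lift_sub_eq {n : ℕ} (hn : IsUnit (n : B)) {γ x : B} (hγ : IsUnit γ)
    (h : x - γ ∈ IsLocalRing.maximalIdeal B) : ∃ u : B, x - γ = u * (x ^ n - γ ^ n) := by
  obtain ⟨κ, hκ⟩ := Polynomial.powAddExpansion γ (x - γ) n
  have hu : IsUnit ((n : B) * γ ^ (n - 1) + κ * (x - γ)) := by
    refine Lift_isUnit_of_sub_mem (hn.mul (hγ.pow (n - 1))) ?_
    have : (n : B) * γ ^ (n - 1) + κ * (x - γ) - (n : B) * γ ^ (n - 1) = κ * (x - γ) := by ring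
    rw [this]
    exact Ideal.mul_mem_left _ _ h
  obtain ⟨u, hu⟩ := hu.exists_left_inv
  refine ⟨u, ?_⟩
  have h1 : x ^ n = γ ^ n + n * γ ^ (n - 1) * (x - γ) + κ * (x - γ) ^ 2 := by
    rw [← hκ]
    congr 1
    ring
  rw [h1]
  linear_combination (-(x - γ)) * hu

end Abstract

/-! ### Valuation subrings -/

section Val

variable {F : Type*} [Field F] (V : ValuationSubring F)

theorem Lift_nu_add {x y : F} (hx : x ∈ V.nonunits) (hy : y ∈ V.nonunits) :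
    x + y ∈ V.nonunits := by
  rw [ValuationSubring.mem_nonunits_iff] at *
  exact lt_of_le_of_lt (V.valuation.map_add x y) (max_lt hx hy)

theorem Lift_nu_neg {x : F} (hx : x ∈ V.nonunits) : -x ∈ V.nonunits := by
  rw [ValuationSubring.mem_nonunits_iff] at *
  rwa [Valuation.map_neg]

theorem Lift_nu_sub {x y : F} (hx : x ∈ V.nonunits) (hy : y ∈ V.nonunits) :
    x - y ∈ V.nonunits := by
  rw [sub_eq_add_neg]
  exact Lift_nu_add V hx (Lift_nu_neg V hy)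

theorem Lift_nu_mul {x y : F} (hx : x ∈ V.nonunits) (hy : y ∈ V) : x * y ∈ V.nonunits := by
  rw [ValuationSubring.mem_nonunits_iff] at *
  rw [← ValuationSubring.valuation_le_one_iff] at hy
  rw [map_mul]
  exact mul_lt_one_of_lt_of_le hx hy

theorem Lift_nu_zero : (0 : F) ∈ V.nonunits := by
  rw [ValuationSubring.mem_nonunits_iff, map_zero]
  exact zero_lt_one

theorem Lift_inv_mem {x : F} (hx : x ∈ V) (hx' : x ∉ V.nonunits) : x⁻¹ ∈ V := by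
  rw [ValuationSubring.mem_nonunits_iff, not_lt] at hx'
  rw [← ValuationSubring.valuation_le_one_iff] at hx ⊢
  rw [map_inv₀, le_antisymm hx hx', inv_one]

end Val

variable {R : Type*} [CommRing R] [IsDomain R] [IsDiscreteValuationRing R]
variable {F : Type*} [Field F] [Algebra R F] {ι : Type*}
variable {ϖ : R} {𝒪 : ι → ValuationSubring F}

/-! ### The local ring `locAt C 𝔪` -/

/-- The `C`-algebra structure of `locAt C 𝔪`. -/
@[reducible] def Lift_alg (C : Subalgebra R F) (𝔪 : Ideal C) [𝔪.IsPrime] :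
    Algebra C (locAt C 𝔪) :=
  (Subalgebra.inclusion (le_locAt C 𝔪)).toRingHom.toAlgebra

theorem Lift_isLocalRing (C : Subalgebra R F) (𝔪 : Ideal C) [𝔪.IsPrime] :
    IsLocalRing (locAt C 𝔪) := by
  let _ := Lift_alg C 𝔪
  have : IsLocalization.AtPrime (locAt C 𝔪) 𝔪 := isLocalization_locAt 𝔪
  exact IsLocalization.AtPrime.isLocalRing (locAt C 𝔪) 𝔪

attribute [local instance] Lift_isLocalRing

theorem Lift_mem_pow_iff (C : Subalgebra R F) (𝔪 : Ideal C) [𝔪.IsPrime] (N : ℕ)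
    (z : locAt C 𝔪) : z ∈ IsLocalRing.maximalIdeal (locAt C 𝔪) ^ N ↔
      ∃ s t : C, s ∉ 𝔪 ∧ t ∈ 𝔪 ^ N ∧ (z : F) * (s : F) = (t : F) := by
  let _ := Lift_alg C 𝔪
  have : IsLocalization.AtPrime (locAt C 𝔪) 𝔪 := isLocalization_locAt 𝔪
  rw [← IsLocalization.AtPrime.map_eq_maximalIdeal 𝔪 (locAt C 𝔪), ← Ideal.map_pow,
    IsLocalization.mem_map_algebraMap_iff 𝔪.primeCompl]
  constructor
  · rintro ⟨⟨⟨t, ht⟩, ⟨s, hs⟩⟩, h⟩
    exact ⟨s, t, hs, ht, congrArg Subtype.val h⟩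
  · rintro ⟨s, t, hs, ht, h⟩
    exact ⟨⟨⟨t, ht⟩, ⟨s, hs⟩⟩, Subtype.ext h⟩

theorem Lift_mem_max_iff (C : Subalgebra R F) (𝔪 : Ideal C) [𝔪.IsPrime] (z : locAt C 𝔪) :
    z ∈ IsLocalRing.maximalIdeal (locAt C 𝔪) ↔ InMaxLoc C 𝔪 (z : F) := by
  have := Lift_mem_pow_iff C 𝔪 1 z
  rw [pow_one, pow_one] at this
  exact this

/-- `locAt C 𝔪 ⊆ 𝒪 i` for the components through `𝔪`. -/
theorem Lift_locAt_le {V : ValuationSubring F} {C : Subalgebra R F} (hle : ∀ x ∈ C, x ∈ V)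
    (𝔪 : Ideal C) [𝔪.IsPrime] (hi : vertI V C ≤ 𝔪) {z : F} (hz : z ∈ locAt C 𝔪) : z ∈ V := by
  obtain ⟨s, hs, hc⟩ := hz
  have hs' : (s : F) ∉ V.nonunits := fun h => hs (hi ((mem_vertI hle s).2 h))
  have hs0 : (s : F) ≠ 0 := Loc_coe_ne_zero 𝔪 hs
  have : z = z * s * (s : F)⁻¹ := by
    rw [mul_assoc, mul_inv_cancel₀ hs0, mul_one]
  rw [this]
  exact V.mul_mem _ _ (hle _ hc) (Lift_inv_mem V (hle _ s.2) hs')

/-- the vertical primes through `𝔪` lie in the maximal ideal. -/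
theorem Lift_mem_max_of_nu {V : ValuationSubring F} {C : Subalgebra R F} (hle : ∀ x ∈ C, x ∈ V)
    (𝔪 : Ideal C) [𝔪.IsPrime] (hi : vertI V C ≤ 𝔪) (z : locAt C 𝔪) (hz : (z : F) ∈ V.nonunits) :
    z ∈ IsLocalRing.maximalIdeal (locAt C 𝔪) := by
  rw [Lift_mem_max_iff]
  obtain ⟨s, hs, hc⟩ := z.2
  refine ⟨s, ⟨_, hc⟩, hs, hi ?_, rfl⟩
  rw [mem_vertI hle]
  exact Lift_nu_mul V hz (hle _ s.2)

/-- Conductor, in the localization. -/
theorem Lift_conductor [Finite ι] {C : Subalgebra R F} (hC : MultiChart ϖ 𝒪 C) (𝔪 : Ideal C)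
    [𝔪.IsPrime] (h𝔪 : 𝔪.IsMaximal) (i : ι) (hi : vertI (𝒪 i) C ≤ 𝔪) :
    ∃ y : C, (∀ j, j ≠ i → (y : F) ∈ (𝒪 j).nonunits) ∧ ∃ N : ℕ,
      ∀ z ∈ IsLocalRing.maximalIdeal (locAt C 𝔪) ^ N,
        ∃ ρ ∈ locAt C 𝔪, (z : F) - y * ρ ∈ (𝒪 i).nonunits := by
  obtain ⟨y, hy, N, hN⟩ := exists_conductor hC 𝔪 h𝔪 i hi
  refine ⟨y, hy, N, fun z hz => ?_⟩
  obtain ⟨s', t, hs', ht, hzt⟩ := (Lift_mem_pow_iff C 𝔪 N z).1 hz
  obtain ⟨r, s, hs, hrs⟩ := hN t ht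
  have hss' : s * s' ∉ 𝔪 := fun h => (‹𝔪.IsPrime›.mem_or_mem h).elim hs hs'
  have hinv : ((s * s' : C) : F)⁻¹ ∈ locAt C 𝔪 := inv_mem_locAt_of_not_mem 𝔪 hss'
  have h0 : ((s * s' : C) : F) ≠ 0 := Loc_coe_ne_zero 𝔪 hss'
  refine ⟨r * ((s * s' : C) : F)⁻¹, (locAt C 𝔪).mul_mem (le_locAt C 𝔪 r.2) hinv, ?_⟩
  have : (z : F) - y * (r * ((s * s' : C) : F)⁻¹) =
      ((s * t - y * r : C) : F) * ((s * s' : C) : F)⁻¹ := by
    rw [eq_mul_inv_iff_mul_eq₀ h0, sub_mul]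
    have e1 : (y : F) * (r * ((s * s' : C) : F)⁻¹) * ((s * s' : C) : F) = y * r := by
      rw [mul_assoc, mul_assoc, inv_mul_cancel₀ h0, mul_one]
    rw [e1]
    push_cast
    rw [← hzt]
    ring
  rw [this]
  exact Lift_nu_mul _ hrs (Lift_locAt_le (hC.le i) 𝔪 hi hinv)

/-- THE LOCAL GLUING LEMMA.  `B = locAt C 𝔪`, `ε ∈ Bˣ`, `c ∈ Bˣ`, and for every component `i`
through `𝔪` an element `x i ∈ B` with `x i ^ n ≡ ε` on the `i`-th component and `x i ≡ c` at `𝔪`.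
Then there is ONE `γ ∈ B` with `γ ≡ x i` on the `i`-th component for all these `i`.
Proof: Newton `γ₀ = c`, `γ_{k+1} = γ_k - (γ_k ^ n - ε) / (n γ_k ^ (n-1))`, so
`γ_k ^ n - ε ∈ 𝔪_B ^ (2 ^ k)`; on the `i`-th component `γ_k ^ n - x i ^ n = (γ_k - x i) * unit`;
correct `γ_k` by `∑ y i * r i` (`exists_conductor`).
(Alternative: helper70's Nakayama argument, report #857 (v).) -/
theorem exists_common_lift [Finite ι] {C : Subalgebra R F} (hC : MultiChart ϖ 𝒪 C)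
    (𝔪 : Ideal C) [𝔪.IsPrime] (h𝔪 : 𝔪.IsMaximal) {n : ℕ} (hn : IsUnit (n : R)) {ε c : F}
    (hε : ε ∈ locAt C 𝔪) (hε' : ε⁻¹ ∈ locAt C 𝔪) (hc : c ∈ locAt C 𝔪)
    (x : ι → F) (hx : ∀ i, vertI (𝒪 i) C ≤ 𝔪 → x i ∈ locAt C 𝔪 ∧
      x i ^ n - ε ∈ (𝒪 i).nonunits ∧ InMaxLoc C 𝔪 (x i - c)) :
    ∃ γ ∈ locAt C 𝔪, γ⁻¹ ∈ locAt C 𝔪 ∧ ∀ i, vertI (𝒪 i) C ≤ 𝔪 → γ - x i ∈ (𝒪 i).nonunits := by
  classical
  cases nonempty_fintype ι
  -- no component through `𝔪`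
  by_cases hS : ∃ i, vertI (𝒪 i) C ≤ 𝔪
  swap
  · exact ⟨1, (locAt C 𝔪).one_mem, by simp,
      fun i hi => absurd ⟨i, hi⟩ hS⟩
  obtain ⟨i₀, hi₀⟩ := hS
  have hn0 : n ≠ 0 := by
    rintro rfl
    simp at hn
  -- the degenerate case `ε = 0`
  by_cases hε0 : ε = 0
  · refine ⟨0, (locAt C 𝔪).zero_mem, by simp, fun i hi => ?_⟩
    have h1 := (hx i hi).2.1
    rw [hε0, sub_zero] at h1
    rw [zero_sub]
    refine Lift_nu_neg _ ?_
    rw [ValuationSubring.mem_nonunits_iff] at h1 ⊢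
    rw [map_pow] at h1
    exact (pow_lt_one_iff hn0).1 h1
  set B := locAt C 𝔪 with hB
  set M := IsLocalRing.maximalIdeal B with hM
  have hnB : IsUnit ((n : ℕ) : B) := by
    have := hn.map (algebraMap R B)
    simpa using this
  let ε' : B := ⟨ε, hε⟩
  let c' : B := ⟨c, hc⟩
  have hεu : IsUnit ε' :=
    IsUnit.of_mul_eq_one ⟨ε⁻¹, hε'⟩ (Subtype.ext (mul_inv_cancel₀ hε0))
  -- facts on each component
  have hX : ∀ i (hi : vertI (𝒪 i) C ≤ 𝔪), (⟨x i, (hx i hi).1⟩ : B) - c' ∈ M ∧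
      (⟨x i, (hx i hi).1⟩ : B) ^ n - ε' ∈ M := by
    intro i hi
    refine ⟨(Lift_mem_max_iff C 𝔪 _).2 (hx i hi).2.2, ?_⟩
    exact Lift_mem_max_of_nu (hC.le i) 𝔪 hi _ (hx i hi).2.1
  -- `c ^ n ≡ ε`
  have hcε : c' ^ n - ε' ∈ M := by
    obtain ⟨h1, h2⟩ := hX i₀ hi₀
    have h3 : (⟨x i₀, (hx i₀ hi₀).1⟩ : B) ^ n - c' ^ n ∈ M :=
      Ideal.mem_of_dvd _ (sub_dvd_pow_sub_pow _ _ n) h1
    have := Ideal.sub_mem _ h2 h3
    simpa using this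
  have hcu : IsUnit c' := by
    have : IsUnit (c' ^ n) := Lift_isUnit_of_sub_mem hεu hcε
    exact (isUnit_pow_iff hn0).1 this
  -- conductors
  have hcond := fun (i : ι) (hi : vertI (𝒪 i) C ≤ 𝔪) => Lift_conductor hC 𝔪 h𝔪 i hi
  choose y hy N hN using hcond
  let Nmax : ℕ := Finset.univ.sup fun i => if hi : vertI (𝒪 i) C ≤ 𝔪 then N i hi else 0
  have hNmax : ∀ i (hi : vertI (𝒪 i) C ≤ 𝔪), N i hi ≤ Nmax := by
    intro i hi
    have := Finset.le_sup (f := fun i => if hi : vertI (𝒪 i) C ≤ 𝔪 then N i hi else 0)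
      (Finset.mem_univ i)
    simpa [hi] using this
  -- Newton
  obtain ⟨γ₀, hγ₀c, hγ₀⟩ := Lift_newton hnB hcu hcε Nmax
  have hγ₀u : IsUnit γ₀ := Lift_isUnit_of_sub_mem hcu hγ₀c
  -- the corrections
  have hcorr : ∀ i (hi : vertI (𝒪 i) C ≤ 𝔪), ∃ ρ ∈ B,
      (γ₀ : F) - x i - y i hi * ρ ∈ (𝒪 i).nonunits := by
    intro i hi
    obtain ⟨h1, h2⟩ := hX i hi
    set X : B := ⟨x i, (hx i hi).1⟩ with hXdef
    have h3 : X - γ₀ ∈ M := by
      have := Ideal.sub_mem _ h1 hγ₀c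
      simpa using this
    obtain ⟨u, hu⟩ := Lift_sub_eq hnB hγ₀u h3
    have hz : u * (γ₀ ^ n - ε') ∈ M ^ (N i hi) :=
      Ideal.mul_mem_left _ _ (Ideal.pow_le_pow_right ((hNmax i hi).trans (Nat.le_succ _)) hγ₀)
    obtain ⟨ρ, hρ, hρ'⟩ := hN i hi _ hz
    refine ⟨ρ, hρ, ?_⟩
    have e1 : γ₀ - X = u * (γ₀ ^ n - ε') - u * (X ^ n - ε') := by
      linear_combination -hu
    have e2 : (γ₀ : F) - x i = ((u * (γ₀ ^ n - ε') : B) : F) - (u : F) * (x i ^ n - ε) :=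
      congrArg Subtype.val e1
    have e3 : (γ₀ : F) - x i - y i hi * ρ =
        (((u * (γ₀ ^ n - ε') : B) : F) - y i hi * ρ) - (x i ^ n - ε) * (u : F) := by
      rw [e2]
      ring
    rw [e3]
    exact Lift_nu_sub _ hρ' (Lift_nu_mul _ (hx i hi).2.1 (Lift_locAt_le (hC.le i) 𝔪 hi u.2))
  choose ρ hρ hρ' using hcorr
  let T : ι → F := fun i => if hi : vertI (𝒪 i) C ≤ 𝔪 then (y i hi : F) * ρ i hi else 0
  have hT : ∀ i, T i ∈ B := by
    intro i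
    by_cases hi : vertI (𝒪 i) C ≤ 𝔪
    · simp only [T, hi, dif_pos]
      exact B.mul_mem (le_locAt C 𝔪 (y i hi).2) (hρ i hi)
    · simp only [T, hi, dif_neg, not_false_eq_true]
      exact B.zero_mem
  have hγB : (γ₀ : F) - ∑ i, T i ∈ B := B.sub_mem γ₀.2 (B.sum_mem fun i _ => hT i)
  have hmain : ∀ j, vertI (𝒪 j) C ≤ 𝔪 → (γ₀ : F) - ∑ i, T i - x j ∈ (𝒪 j).nonunits := by
    intro j hj
    have e1 : ∑ i, T i = T j + ∑ i ∈ Finset.univ.erase j, T i :=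
      (Finset.add_sum_erase _ _ (Finset.mem_univ j)).symm
    have e2 : (γ₀ : F) - ∑ i, T i - x j =
        ((γ₀ : F) - x j - y j hj * ρ j hj) - ∑ i ∈ Finset.univ.erase j, T i := by
      rw [e1]
      simp only [T, hj, dif_pos]
      ring
    rw [e2]
    refine Lift_nu_sub _ (hρ' j hj) ?_
    refine Finset.sum_induction _ (fun a => a ∈ (𝒪 j).nonunits)
      (fun a b => Lift_nu_add _) (Lift_nu_zero _) ?_
    intro i hi
    have hij : i ≠ j := (Finset.mem_erase.1 hi).1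
    by_cases hi' : vertI (𝒪 i) C ≤ 𝔪
    · simp only [T, hi', dif_pos]
      exact Lift_nu_mul _ (hy i hi' j hij.symm) (Lift_locAt_le (hC.le j) 𝔪 hj (hρ i hi'))
    · simp only [T, hi', dif_neg, not_false_eq_true]
      exact Lift_nu_zero _
  refine ⟨(γ₀ : F) - ∑ i, T i, hγB, ?_, hmain⟩
  -- `γ` is a unit
  have hXu : IsUnit (⟨x i₀, (hx i₀ hi₀).1⟩ : B) := Lift_isUnit_of_sub_mem hcu (hX i₀ hi₀).1
  have hγu : IsUnit (⟨_, hγB⟩ : B) := by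
    refine Lift_isUnit_of_sub_mem hXu ?_
    exact Lift_mem_max_of_nu (hC.le i₀) 𝔪 hi₀ _ (hmain i₀ hi₀)
  obtain ⟨w, hw⟩ := hγu.exists_right_inv
  have hw' : ((γ₀ : F) - ∑ i, T i) * (w : F) = 1 := congrArg Subtype.val hw
  rw [← eq_inv_of_mul_eq_one_right hw']
  exact w.2

end Fermat.Agent.GT
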