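import Fermat.Agent.GT.Abs.Basic
import Fermat.Agent.GR.E.E1
import Fermat.Agent.GR.E.E2

/-! GT abstract part, file `LocGen`: the local ring at a closed point of the special fibre at which
one of the vertical primes is principal is a UFD, hence `I(C)` is locally generated by one
element. -/

set_option autoImplicit false

namespace Fermat.Agent.GT

open Fermat.Agent.GR.E Fermat.Agent.GS

variable {R : Type*} [CommRing R] [IsDomain R] [IsDiscreteValuationRing R]
variable {F : Type*} [Field F] [Algebra R F] {ι : Type*}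
variable {ϖ : R} {𝒪 : ι → ValuationSubring F}

/-- `vertI 𝒪 C` is principal in the local ring of `C` at `𝔪`, generated by `X`. -/
def PrincipalAt (𝒪 : ValuationSubring F) (C : Subalgebra R F) (𝔪 : Ideal C) (X : C) : Prop :=
  X ∈ vertI 𝒪 C ∧ ∀ f ∈ vertI 𝒪 C, ∃ s : C, s ∉ 𝔪 ∧ X ∣ s * f

omit [IsDomain R] [IsDiscreteValuationRing R] in
/-- `F` is the fraction field of a multi-chart. -/
theorem locGen_isFractionRing [Nonempty ι] {C : Subalgebra R F} (hC : MultiChart ϖ 𝒪 C) :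
    IsFractionRing C F := by
  obtain ⟨i₀⟩ := (inferInstance : Nonempty ι)
  refine IsFractionRing.of_field C F fun z => ?_
  have key : ∀ x ∈ 𝒪 i₀, ∃ a b : C, (b : F) ≠ 0 ∧ x = (a : F) / (b : F) := by
    intro x hx
    obtain ⟨b, hb, hb', hxb⟩ := hC.frac i₀ x hx
    have hb0 : b ≠ 0 := by
      rintro rfl
      exact hb' (by rw [ValuationSubring.mem_nonunits_iff]; simp)
    exact ⟨⟨x * b, hxb⟩, ⟨b, hb⟩, hb0, by field_simp⟩
  rcases (𝒪 i₀).mem_or_inv_mem z with hz | hz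
  · obtain ⟨a, b, _, h⟩ := key z hz
    exact ⟨a, b, h⟩
  · obtain ⟨a, b, _, h⟩ := key z⁻¹ hz
    refine ⟨b, a, ?_⟩
    have : z = ((a : F) / (b : F))⁻¹ := by rw [← h, inv_inv]
    rw [this, inv_div]
    rfl

/-- Saturation of the local ring: an element of `C_𝔪[1/ϖ]` which lies in all the `𝒪 i` lies in
`C_𝔪`. -/
theorem locGen_mul_mem_of_forall_mem (hV : VertFam ϖ 𝒪) {C : Subalgebra R F}
    (hC : SatChartI ϖ 𝒪 C)
    {x : F} {s : C}
    {m : ℕ} (hx : x * s * algebraMap R F ϖ ^ m ∈ C) (h : ∀ i, x ∈ 𝒪 i) : x * s ∈ C := by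
  have h0 : algebraMap R F ϖ ^ m ≠ 0 := pow_ne_zero _ hV.ne_zero
  have h1 := hC.sat_pow m hx (fun i => by
    rw [mul_div_cancel_right₀ _ h0]
    exact (𝒪 i).mul_mem _ _ (h i) (hC.le i _ s.2))
  rwa [mul_div_cancel_right₀ _ h0] at h1

/-- Local triviality at a closed point of the special fibre at which one of the vertical primes
through the point is principal.  Copy of `GR.E.exists_mem_rootSet_not_mem` with the local
generator `X` of `vertI (𝒪 i) C` in the place of `ϖ`. -/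
theorem exists_locGen [Nonempty ι] (hϖ : Irreducible ϖ) (hV : VertFam ϖ 𝒪)
    {C : Subalgebra R F} (hC : MultiChart ϖ 𝒪 C) {n : ℕ} (hn : 0 < n) {w : F}
    (hw : ∀ i, w ∈ 𝒪 i) (hw' : ∀ i, w⁻¹ ∈ 𝒪 i) (hw0 : w ≠ 0) (hdiv : DivisibleAtPlaces R n w)
    (𝔪 : Ideal C) (h𝔪 : 𝔪.IsMaximal) (hϖ𝔪 : algebraMap R C ϖ ∈ 𝔪)
    (hreg : ∃ i, vertI (𝒪 i) C ≤ 𝔪 ∧ ∃ X : C, PrincipalAt (𝒪 i) C 𝔪 X) :
    ∃ a : F, a ≠ 0 ∧ ∃ h : a ^ n * w ∈ C, (⟨a ^ n * w, h⟩ : C) ∉ 𝔪 := by
  classical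
  have : IsFractionRing C F := locGen_isFractionRing hC
  have : IsNoetherianRing C := hC.noeth
  have : 𝔪.IsPrime := h𝔪.isPrime
  have hπ0 : algebraMap R F ϖ ≠ 0 := hV.ne_zero
  obtain ⟨i, hi𝔪, X, hXmem, hXgen⟩ := hreg
  have : IsDedekindDomain (C ⧸ vertI (𝒪 i) C) := hC.ded i
  let A : Subalgebra C F :=
    Localization.subalgebra.ofField F 𝔪.primeCompl 𝔪.primeCompl_le_nonZeroDivisors
  have hloc : IsLocalization.AtPrime A 𝔪 :=
    Localization.subalgebra.isLocalization_ofField F _ _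
  have : IsLocalRing A := IsLocalization.AtPrime.isLocalRing A 𝔪
  have : IsNoetherianRing A := IsLocalization.isNoetherianRing 𝔪.primeCompl A inferInstance
  have hAmem : ∀ x : F, x ∈ A ↔ ∃ (a s : C) (_ : s ∈ 𝔪.primeCompl),
      x = algebraMap C F a * (algebraMap C F s)⁻¹ := fun x => Iff.rfl
  have hne0 : ∀ s : C, s ∉ 𝔪 → (s : F) ≠ 0 := by
    intro s hs h
    apply hs
    have : s = 0 := Subtype.ext h
    rw [this]
    exact 𝔪.zero_mem
  -- the uniformizer in `C` and in `A`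
  set ϖC : C := algebraMap R C ϖ with hϖC
  set ϖA : A := algebraMap C A ϖC with hϖA
  have hϖAF : (ϖA : F) = algebraMap R F ϖ := rfl
  have hϖA0 : ϖA ≠ 0 := fun h => hπ0 (by rw [← hϖAF, h]; rfl)
  set XA : A := algebraMap C A X with hXA
  -- `A / X` is a local Dedekind domain, hence a PID
  have hM : Algebra.algebraMapSubmonoid (C ⧸ vertI (𝒪 i) C) 𝔪.primeCompl ≤
      nonZeroDivisors (C ⧸ vertI (𝒪 i) C) := by
    rintro _ ⟨s, hs, rfl⟩
    apply mem_nonZeroDivisors_of_ne_zero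
    intro h0
    apply hs
    have : s ∈ vertI (𝒪 i) C := Ideal.Quotient.eq_zero_iff_mem.1 h0
    exact hi𝔪 this
  have hdom : IsDomain (A ⧸ (vertI (𝒪 i) C).map (algebraMap C A)) :=
    IsLocalization.isDomain_of_le_nonZeroDivisors (R := C ⧸ vertI (𝒪 i) C)
      (A ⧸ (vertI (𝒪 i) C).map (algebraMap C A)) hM
  have hded : IsDedekindDomain (A ⧸ (vertI (𝒪 i) C).map (algebraMap C A)) :=
    IsLocalization.isDedekindDomain (C ⧸ vertI (𝒪 i) C) hM _
  have hI : (vertI (𝒪 i) C).map (algebraMap C A) = Ideal.span {XA} := by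
    apply le_antisymm
    · rw [Ideal.map_le_iff_le_comap]
      intro f hf
      obtain ⟨s, hs, hd⟩ := hXgen f hf
      rw [Ideal.mem_comap, Ideal.mem_span_singleton]
      have hsu : IsUnit (algebraMap C A s) := (IsLocalization.AtPrime.isUnit_to_map_iff A 𝔪 s).2 hs
      have h1 : XA ∣ algebraMap C A s * algebraMap C A f := by
        rw [← map_mul]
        exact map_dvd (algebraMap C A) hd
      exact (hsu.dvd_mul_left).1 h1
    · rw [Ideal.span_le, Set.singleton_subset_iff]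
      exact Ideal.mem_map_of_mem _ hXmem
  rw [hI] at hded hdom
  have hXA0 : XA ≠ 0 := by
    intro h0
    have h1 : ϖA ∈ (vertI (𝒪 i) C).map (algebraMap C A) :=
      Ideal.mem_map_of_mem _ ((mem_vertI (hC.le i) _).2 (hV.mem i))
    rw [hI, h0, Ideal.mem_span_singleton, zero_dvd_iff] at h1
    exact hϖA0 h1
  have hnt : Nontrivial (A ⧸ Ideal.span {XA}) := hdom.toNontrivial
  have hlocq : IsLocalRing (A ⧸ Ideal.span {XA}) :=
    IsLocalRing.of_surjective' (Ideal.Quotient.mk _) Ideal.Quotient.mk_surjective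
  have hpid : IsPrincipalIdealRing (A ⧸ Ideal.span {XA}) :=
    IsDedekindDomain.isPrincipalIdealRing (A ⧸ Ideal.span {XA})
  have hprime : Prime XA := by
    rw [← Ideal.span_singleton_prime hXA0]
    exact (Ideal.Quotient.isDomain_iff_prime _).1 hdom
  have hufd : UniqueFactorizationMonoid A := ufd_of_quotient_isPrincipalIdealRing XA hprime hpid
  have hinj : Function.Injective (algebraMap A F) := IsFractionRing.injective A F
  -- saturation of `A`
  have hsatA : ∀ (v : F) (t' y : A), (∀ j, v ∈ 𝒪 j) →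
      v * (t' : F) * algebraMap R F ϖ = (y : F) → v * (t' : F) ∈ A := by
    intro v t' y hv hy
    obtain ⟨c, σ, hσ, hc⟩ := (hAmem _).1 t'.2
    obtain ⟨d, σ', hσ', hd⟩ := (hAmem _).1 y.2
    have hσ0 : (σ : F) ≠ 0 := hne0 σ hσ
    have hσ'0 : (σ' : F) ≠ 0 := hne0 σ' hσ'
    have hc' : (t' : F) = (c : F) * (σ : F)⁻¹ := hc
    have hd' : (y : F) = (d : F) * (σ' : F)⁻¹ := hd
    have h1 : v * (c : F) * (σ' : F) * algebraMap R F ϖ ^ 1 ∈ C := by
      have : v * (c : F) * (σ' : F) * algebraMap R F ϖ ^ 1 = ((d * σ : C) : F) := by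
        have e1 : v * (c : F) = v * (t' : F) * (σ : F) := by
          rw [hc']; field_simp
        rw [e1, pow_one]
        have e2 : v * (t' : F) * (σ : F) * (σ' : F) * algebraMap R F ϖ
            = (v * (t' : F) * algebraMap R F ϖ) * ((σ : F) * (σ' : F)) := by ring
        rw [e2, hy, hd']
        show (d : F) * (σ' : F)⁻¹ * ((σ : F) * (σ' : F)) = (d : F) * (σ : F)
        field_simp
      rw [this]
      exact (d * σ : C).2
    have h2 : v * (c : F) * (σ' : F) ∈ C :=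
      locGen_mul_mem_of_forall_mem hV hC.toSatChartI (x := v * (c : F)) (s := σ') (m := 1) h1
        (fun j => (𝒪 j).mul_mem _ _ (hv j) (hC.le j _ c.2))
    refine (hAmem _).2 ⟨⟨_, h2⟩, σ * σ', 𝔪.primeCompl.mul_mem hσ hσ', ?_⟩
    show v * (t' : F) = v * (c : F) * (σ' : F) * ((σ : F) * (σ' : F))⁻¹
    rw [hc']
    field_simp
  have key : ∀ f : A, Prime f → ∃ a : F, a ≠ 0 ∧ ∃ s t : A, ¬ f ∣ s ∧ ¬ f ∣ t ∧
      a ^ n * w * algebraMap A F t = algebraMap A F s := by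
    intro f hf
    by_cases hfϖ : f ∣ ϖA
    · -- a vertical prime
      obtain ⟨g, hg⟩ := hfϖ
      have hf0 : (f : F) ≠ 0 := fun h => hf.ne_zero (Subtype.ext h)
      have hgF : algebraMap R F ϖ = (f : F) * (g : F) := by
        rw [← hϖAF, hg]; rfl
      obtain ⟨x, ⟨y, hy⟩, hxy, hwxy⟩ := IsFractionRing.exists_reduced_fraction A w
      have hy0 : y ≠ 0 := nonZeroDivisors.ne_zero hy
      have hyF : (y : F) ≠ 0 := fun h => hy0 (Subtype.ext h)
      have hwy : w * (y : F) = (x : F) := by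
        have := IsLocalization.mk'_spec F x (⟨y, hy⟩ : nonZeroDivisors A)
        rw [hwxy] at this
        exact this
      have hx0 : (x : F) ≠ 0 := by
        rw [← hwy]; exact mul_ne_zero hw0 hyF
      have hnot : ¬ (f ∣ x ∧ f ∣ y) := fun h => hf.not_isUnit (hxy h.1 h.2)
      refine ⟨1, one_ne_zero, x, y, ?_, ?_, ?_⟩
      · -- `f ∣ x`: then `w⁻¹ x' = y / f ∈ A`
        rintro ⟨x', hx'⟩
        apply hnot
        refine ⟨⟨x', hx'⟩, ?_⟩
        have hxF : (x : F) = (f : F) * (x' : F) := by rw [hx']; rfl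
        have h1 : w⁻¹ * (x' : F) * algebraMap R F ϖ = ((y * g : A) : F) := by
          show w⁻¹ * (x' : F) * algebraMap R F ϖ = (y : F) * (g : F)
          rw [hgF]
          have : (y : F) = w⁻¹ * ((f : F) * (x' : F)) := by
            rw [← hxF, ← hwy]; field_simp
          rw [this]; ring
        have h2 := hsatA w⁻¹ x' (y * g) hw' h1
        refine ⟨⟨_, h2⟩, ?_⟩
        apply Subtype.ext
        show (y : F) = (f : F) * (w⁻¹ * (x' : F))
        have : (y : F) = w⁻¹ * ((f : F) * (x' : F)) := by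
          rw [← hxF, ← hwy]; field_simp
        rw [this]; ring
      · -- `f ∣ y`: then `w y' = x / f ∈ A`
        rintro ⟨y', hy'⟩
        apply hnot
        refine ⟨?_, ⟨y', hy'⟩⟩
        have hyF' : (y : F) = (f : F) * (y' : F) := by rw [hy']; rfl
        have h1 : w * (y' : F) * algebraMap R F ϖ = ((x * g : A) : F) := by
          show w * (y' : F) * algebraMap R F ϖ = (x : F) * (g : F)
          rw [hgF, ← hwy, hyF']; ring
        have h2 := hsatA w y' (x * g) hw h1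
        refine ⟨⟨_, h2⟩, ?_⟩
        apply Subtype.ext
        show (x : F) = (f : F) * (w * (y' : F))
        rw [← hwy, hyF']; ring
      · rw [one_pow, one_mul]
        exact hwy
    · -- a horizontal prime
      obtain ⟨V, hV'⟩ := exists_valuationSubring_of_prime (F := F) f hf
      have h1 : ∀ r : R, algebraMap R F r ∈ V := fun r =>
        (hV' _).2 ⟨algebraMap C A (algebraMap R C r), 1, hf.not_dvd_one, by
          rw [map_one, mul_one]; rfl⟩
      have h2 : ∀ r : R, (algebraMap R F r)⁻¹ ∈ V := by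
        intro r
        by_cases hr : r = 0
        · rw [hr, map_zero, inv_zero]
          exact V.zero_mem
        obtain ⟨k, u, rfl⟩ := IsDiscreteValuationRing.eq_unit_mul_pow_irreducible hr hϖ
        have hu : IsUnit (algebraMap C A (algebraMap R C (u : R))) :=
          (u.isUnit.map (algebraMap R C)).map (algebraMap C A)
        have hne : algebraMap R F ((u : R) * ϖ ^ k) ≠ 0 := by
          rw [map_mul, map_pow]
          exact mul_ne_zero (u.isUnit.map (algebraMap R F)).ne_zero (pow_ne_zero _ hπ0)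
        refine (hV' _).2 ⟨1, algebraMap C A (algebraMap R C ((u : R) * ϖ ^ k)), ?_, ?_⟩
        · rw [map_mul, map_mul, map_pow, map_pow]
          intro hd
          rcases hf.dvd_or_dvd hd with hd | hd
          · exact hf.not_isUnit (isUnit_of_dvd_unit hd hu)
          · exact hfϖ (hf.dvd_of_dvd_pow hd)
        · rw [map_one]
          exact inv_mul_cancel₀ hne
      obtain ⟨a, ha0, hV1, hV2⟩ := hdiv V h1 h2
      obtain ⟨s₁, t₁, ht₁, e₁⟩ := (hV' _).1 hV1
      obtain ⟨s₂, t₂, ht₂, e₂⟩ := (hV' _).1 hV2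
      refine ⟨a, ha0, s₁, t₁, ?_, ht₁, e₁⟩
      intro hs₁
      have hne : a ^ n * w ≠ 0 := mul_ne_zero (pow_ne_zero _ ha0) hw0
      have e₃ : t₂ * t₁ = s₂ * s₁ := by
        apply hinj
        rw [map_mul, map_mul, ← e₁, ← e₂]
        field_simp
      have : f ∣ t₂ * t₁ := e₃ ▸ Dvd.dvd.mul_left hs₁ s₂
      rcases hf.dvd_or_dvd this with h | h
      · exact ht₂ h
      · exact ht₁ h
  obtain ⟨a₁, ha₁, ε, hε⟩ := exists_pow_mul_eq_unit n hn w hw0 key
  obtain ⟨c, s', hs', hcs⟩ := (hAmem _).1 (ε : A).2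
  have hs'0 : (s' : F) ≠ 0 := hne0 s' hs'
  have hc : c ∈ 𝔪.primeCompl := by
    rw [← IsLocalization.AtPrime.isUnit_to_map_iff A 𝔪 c]
    have hcA : algebraMap C A c = (ε : A) * algebraMap C A s' := by
      apply Subtype.ext
      show (c : F) = ((ε : A) : F) * (s' : F)
      rw [hcs]
      show (c : F) = (c : F) * (s' : F)⁻¹ * (s' : F)
      field_simp
    rw [hcA]
    exact ε.isUnit.mul ((IsLocalization.AtPrime.isUnit_to_map_iff A 𝔪 s').2 hs')
  obtain ⟨k, rfl⟩ : ∃ k, n = k + 1 := Nat.exists_eq_succ_of_ne_zero hn.ne'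
  have e : (a₁ * (s' : F)) ^ (k + 1) * w = ((c * s' ^ k : C) : F) := by
    have h4 : (a₁ * (s' : F)) ^ (k + 1) * w = (a₁ ^ (k + 1) * w) * (s' : F) ^ (k + 1) := by ring
    rw [h4, hε]
    show ((ε : A) : F) * (s' : F) ^ (k + 1) = (c : F) * (s' : F) ^ k
    rw [hcs]
    show (c : F) * (s' : F)⁻¹ * (s' : F) ^ (k + 1) = (c : F) * (s' : F) ^ k
    rw [pow_succ]
    field_simp
  refine ⟨a₁ * (s' : F), mul_ne_zero ha₁ hs'0, e ▸ (c * s' ^ k : C).2, ?_⟩
  have e' : (⟨(a₁ * (s' : F)) ^ (k + 1) * w, e ▸ (c * s' ^ k : C).2⟩ : C) = c * s' ^ k :=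
    Subtype.ext e
  rw [e']
  intro hmem
  rcases (inferInstance : 𝔪.IsPrime).mem_or_mem hmem with h | h
  · exact hc h
  · exact hs' ((inferInstance : 𝔪.IsPrime).mem_of_pow_mem _ h)

/-- The same in the shape of the first two clauses of `GT.LocalTriv`. -/
theorem exists_locGen' [Nonempty ι] (hϖ : Irreducible ϖ) (hV : VertFam ϖ 𝒪)
    {C : Subalgebra R F} (hC : MultiChart ϖ 𝒪 C) {n : ℕ} (hn : 0 < n) {w : F}
    (hw : ∀ i, w ∈ 𝒪 i) (hw' : ∀ i, w⁻¹ ∈ 𝒪 i) (hw0 : w ≠ 0) (hdiv : DivisibleAtPlaces R n w)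
    (𝔪 : Ideal C) (h𝔪 : 𝔪.IsMaximal) (hϖ𝔪 : algebraMap R C ϖ ∈ 𝔪)
    (hreg : ∃ i, vertI (𝒪 i) C ≤ 𝔪 ∧ ∃ X : C, PrincipalAt (𝒪 i) C 𝔪 X) :
    haveI := h𝔪.isPrime
    ∃ a : F, a ≠ 0 ∧ a ^ n * w ∈ locAt C 𝔪 ∧ (a ^ n * w)⁻¹ ∈ locAt C 𝔪 := by
  haveI := h𝔪.isPrime
  obtain ⟨a, ha0, h, hm⟩ := exists_locGen hϖ hV hC hn hw hw' hw0 hdiv 𝔪 h𝔪 hϖ𝔪 hreg
  refine ⟨a, ha0, le_locAt C 𝔪 h, mem_locAt.2 ⟨⟨a ^ n * w, h⟩, hm, ?_⟩⟩
  have hne : a ^ n * w ≠ 0 := mul_ne_zero (pow_ne_zero _ ha0) hw0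
  show (a ^ n * w)⁻¹ * (a ^ n * w) ∈ C
  rw [inv_mul_cancel₀ hne]
  exact C.one_mem

end Fermat.Agent.GT
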