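import Fermat.Agent.GT.Abs.Basic

/-! GT abstract part, file `Zeta`: constants which are `n`-th roots of unity modulo `ϖ`. -/

set_option autoImplicit false

namespace Fermat.Agent.GT

open Fermat.Agent.GR.E Fermat.Agent.GS

variable {R : Type*} [CommRing R] [IsDomain R] [IsDiscreteValuationRing R]
variable {F : Type*} [Field F] [Algebra R F]
variable {ϖ : R}

theorem zeta_pow_sub_one_mem {V : ValuationSubring F} (hR : ∀ r : R, algebraMap R F r ∈ V)
    (hϖ : algebraMap R F ϖ ∈ V.nonunits) {n : ℕ} {ζ : R} (hζ : ϖ ∣ ζ ^ n - 1) :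
    algebraMap R F ζ ^ n - 1 ∈ V.nonunits := by
  obtain ⟨r, hr⟩ := hζ
  have : algebraMap R F ζ ^ n - 1 = algebraMap R F r * algebraMap R F ϖ := by
    rw [← map_pow, ← map_one (algebraMap R F), ← map_sub, hr, map_mul, mul_comm]
  rw [this]
  exact basic_mul_mem_nonunits (hR r) hϖ

/-- `ζ` is a unit of `R`. -/
theorem zeta_isUnit (hϖ : Irreducible ϖ) {n : ℕ} (hn : 0 < n) {ζ : R} (hζ : ϖ ∣ ζ ^ n - 1) :
    IsUnit ζ := by
  by_contra h
  have h1 : ζ ∈ IsLocalRing.maximalIdeal R := (IsLocalRing.mem_maximalIdeal _).2 h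
  rw [hϖ.maximalIdeal_eq, Ideal.mem_span_singleton] at h1
  have h2 : ϖ ∣ ζ ^ n := dvd_pow h1 hn.ne'
  have h3 : ϖ ∣ 1 := by
    have := dvd_sub h2 hζ
    simpa using this
  exact hϖ.not_isUnit (isUnit_of_dvd_one h3)

/-- The image of `ζ` has valuation one. -/
theorem zeta_valuation_eq_one {V : ValuationSubring F} (hR : ∀ r : R, algebraMap R F r ∈ V)
    (hϖ : algebraMap R F ϖ ∈ V.nonunits) {n : ℕ} (hn : 0 < n) {ζ : R} (hζ : ϖ ∣ ζ ^ n - 1) :
    V.valuation (algebraMap R F ζ) = 1 := by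
  have h1 := zeta_pow_sub_one_mem hR hϖ hζ
  rw [ValuationSubring.mem_nonunits_iff] at h1
  have h2 : V.valuation (algebraMap R F ζ ^ n) = V.valuation 1 :=
    Valuation.map_eq_of_sub_lt _ (by rwa [map_one])
  rw [map_pow, map_one] at h2
  exact (pow_eq_one_iff_of_nonneg zero_le' hn.ne').1 h2

theorem zeta_inv_mem {V : ValuationSubring F} (hR : ∀ r : R, algebraMap R F r ∈ V)
    (hϖ : algebraMap R F ϖ ∈ V.nonunits) {n : ℕ} (hn : 0 < n) {ζ : R} (hζ : ϖ ∣ ζ ^ n - 1) :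
    (algebraMap R F ζ)⁻¹ ∈ V := by
  rw [← V.valuation_le_one_iff, map_inv₀, zeta_valuation_eq_one hR hϖ hn hζ, inv_one]

theorem zeta_not_mem_nonunits {V : ValuationSubring F} (hR : ∀ r : R, algebraMap R F r ∈ V)
    (hϖ : algebraMap R F ϖ ∈ V.nonunits) {n : ℕ} (hn : 0 < n) {ζ : R} (hζ : ϖ ∣ ζ ^ n - 1) :
    algebraMap R F ζ ∉ V.nonunits := by
  rw [ValuationSubring.mem_nonunits_iff, zeta_valuation_eq_one hR hϖ hn hζ]
  exact lt_irrefl _

end Fermat.Agent.GT
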