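import Fermat.Agent.GT.Abs.Lift
import Fermat.Agent.GT.Abs.Zeta

/-! GT abstract part, file `Local`: from local triviality with prescribed gluing constants
(`LocalTriv`) to `GlueAtI`. -/

set_option autoImplicit false

namespace Fermat.Agent.GT

open Fermat.Agent.GR.E Fermat.Agent.GS

variable {R : Type*} [CommRing R] [IsDomain R] [IsDiscreteValuationRing R]
variable {F : Type*} [Field F] [Algebra R F] {ι : Type*}
variable {ϖ : R} {𝒪 : ι → ValuationSubring F}

section aux
variable {V : ValuationSubring F}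

omit [Algebra R F] in
theorem Local_nonunits_add {x y : F} (hx : x ∈ V.nonunits) (hy : y ∈ V.nonunits) :
    x + y ∈ V.nonunits := by
  rw [ValuationSubring.mem_nonunits_iff] at *
  exact Valuation.map_add_lt _ hx hy

omit [Algebra R F] in
theorem Local_nonunits_mul {x y : F} (hx : x ∈ V.nonunits) (hy : y ∈ V) :
    x * y ∈ V.nonunits := by
  rw [ValuationSubring.mem_nonunits_iff] at *
  rw [map_mul]
  exact mul_lt_one_of_lt_of_le hx ((V.valuation_le_one_iff y).mpr hy)

omit [Algebra R F] in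
theorem Local_nonunits_neg {x : F} (hx : x ∈ V.nonunits) : -x ∈ V.nonunits := by
  rw [ValuationSubring.mem_nonunits_iff] at *
  rwa [Valuation.map_neg]

omit [Algebra R F] in
theorem Local_nonunits_mem {x : F} (hx : x ∈ V.nonunits) : x ∈ V := by
  rw [ValuationSubring.mem_nonunits_iff] at hx
  exact (V.valuation_le_one_iff x).mp hx.le

omit [Algebra R F] in
theorem Local_inv_mem {s : F} (hs : s ∈ V) (hs' : s ∉ V.nonunits) : s⁻¹ ∈ V := by
  rw [ValuationSubring.mem_nonunits_iff, not_lt] at hs'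
  have h1 : V.valuation s = 1 := le_antisymm ((V.valuation_le_one_iff s).mpr hs) hs'
  rw [← V.valuation_le_one_iff, map_inv₀, h1, inv_one]

omit [Algebra R F] in
theorem Local_pow_sub_pow {x y : F} (hx : x ∈ V) (hy : y ∈ V) (h : x - y ∈ V.nonunits) (n : ℕ) :
    x ^ n - y ^ n ∈ V.nonunits := by
  rw [← geom_sum₂_mul, mul_comm]
  exact Local_nonunits_mul h (sum_mem fun i _ => mul_mem (pow_mem hx _) (pow_mem hy _))

end aux

/-- the localisation at a closed point lies in the valuation rings of the components through it. -/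
theorem Local_locAt_le {C : Subalgebra R F} (hC : SatChartI ϖ 𝒪 C) (𝔪 : Ideal C) [𝔪.IsPrime]
    (i : ι) (hi : vertI (𝒪 i) C ≤ 𝔪) {x : F} (hx : x ∈ locAt C 𝔪) : x ∈ 𝒪 i := by
  obtain ⟨s, hs, hxs⟩ := hx
  have hs1 : (s : F) ∉ (𝒪 i).nonunits := fun h => hs (hi ((mem_vertI (hC.le i) s).mpr h))
  have hs2 : (s : F)⁻¹ ∈ 𝒪 i := Local_inv_mem (hC.le i _ s.2) hs1
  have hs0 : (s : F) ≠ 0 := Loc_coe_ne_zero 𝔪 hs
  have : x = x * (s : F) * (s : F)⁻¹ := by field_simp
  rw [this]
  exact mul_mem (hC.le i _ hxs) hs2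

/-- From `LocalTriv` to `GlueAtI`: with `a, c, x i` as in `LocalTriv`, apply
`exists_common_lift` to `ε = a ^ n * w` and `x i / ζ i`; then `b = a * s * y`, `e = γ * s * y` with
`y` from `exists_avoid` and `s ∈ C ∖ 𝔪` a common denominator of `ε` and `γ`. -/
theorem glueAtI_of_localTriv [Finite ι] (hϖ : Irreducible ϖ) (hV : VertFam ϖ 𝒪)
    {C : Subalgebra R F} (hC : MultiChart ϖ 𝒪 C)
    (𝔪 : Ideal C) [𝔪.IsPrime] (h𝔪 : 𝔪.IsMaximal) {n : ℕ} (hn : IsUnit (n : R)) {w : F}
    (hw : ∀ i, w - 1 ∈ (𝒪 i).nonunits) (ζ : ι → R) (hζ : ∀ i, ϖ ∣ ζ i ^ n - 1)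
    (h : LocalTriv 𝒪 ζ C n w 𝔪) : GlueAtI 𝒪 ζ C n w 𝔪 := by
  classical
  obtain ⟨a, hε, hε', c, hc, hx⟩ := h
  have hn0 : 0 < n := by
    rcases Nat.eq_zero_or_pos n with rfl | h
    · simp at hn
    · exact h
  choose! x hxB hxa hxc using hx
  have hξ : ∀ i, ∃ ξ : R, ζ i * ξ = 1 := fun i =>
    (zeta_isUnit hϖ hn0 (hζ i)).exists_right_inv
  choose ξ hξ using hξ
  have hZ : ∀ i, algebraMap R F (ζ i) * algebraMap R F (ξ i) = 1 := fun i => by
    rw [← map_mul, hξ, map_one]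
  have hZn : ∀ i, algebraMap R F (ξ i) ^ n - 1 ∈ (𝒪 i).nonunits := fun i => by
    have h1 := zeta_pow_sub_one_mem (fun r => hC.le i _ (C.algebraMap_mem r)) (hV.mem i) (hζ i)
    have e : algebraMap R F (ξ i) ^ n - 1 =
        -((algebraMap R F (ζ i) ^ n - 1) * algebraMap R F (ξ i) ^ n) := by
      have : algebraMap R F (ζ i) ^ n * algebraMap R F (ξ i) ^ n = 1 := by
        rw [← mul_pow, hZ, one_pow]
      linear_combination this
    rw [e]
    exact Local_nonunits_neg (Local_nonunits_mul h1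
      (pow_mem (hC.le i _ (C.algebraMap_mem _)) n))
  have hw' := fun i => unit_of_sub_one_mem (hw i)
  have haO : ∀ i, vertI (𝒪 i) C ≤ 𝔪 → a ∈ 𝒪 i := fun i hi => by
    have h1 := Local_locAt_le hC.toSatChartI 𝔪 i hi (hxB i hi)
    have h2 := Local_nonunits_mem (hxa i hi)
    have : a = a - x i + x i := by ring
    rw [this]
    exact add_mem h2 h1
  have hX : ∀ i, vertI (𝒪 i) C ≤ 𝔪 → algebraMap R F (ξ i) * x i ∈ locAt C 𝔪 ∧
      (algebraMap R F (ξ i) * x i) ^ n - a ^ n * w ∈ (𝒪 i).nonunits ∧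
      InMaxLoc C 𝔪 (algebraMap R F (ξ i) * x i - (c : F)) := by
    intro i hi
    refine ⟨?_, ?_, ?_⟩
    · exact (locAt C 𝔪).mul_mem ((locAt C 𝔪).algebraMap_mem _) (hxB i hi)
    · have hxO := Local_locAt_le hC.toSatChartI 𝔪 i hi (hxB i hi)
      have h1 : x i ^ n - a ^ n ∈ (𝒪 i).nonunits :=
        Local_pow_sub_pow hxO (haO i hi) (by
          have := Local_nonunits_neg (hxa i hi)
          rwa [neg_sub] at this) n
      have h2 : (w - 1) * a ^ n ∈ (𝒪 i).nonunits :=
        Local_nonunits_mul (hw i) (pow_mem (haO i hi) n)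
      have e : (algebraMap R F (ξ i) * x i) ^ n - a ^ n * w =
          ((x i ^ n - a ^ n) + -((w - 1) * a ^ n)) + (algebraMap R F (ξ i) ^ n - 1) * x i ^ n := by
        ring
      rw [e]
      exact Local_nonunits_add (Local_nonunits_add h1 (Local_nonunits_neg h2))
        (Local_nonunits_mul (hZn i) (pow_mem hxO n))
    · obtain ⟨s, t, hs, ht, hst⟩ := hxc i hi
      refine ⟨s, algebraMap R C (ξ i) * t, hs, 𝔪.mul_mem_left _ ht, ?_⟩
      have e : (algebraMap R F (ξ i) * x i - (c : F)) * (s : F) =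
          algebraMap R F (ξ i) * ((x i - algebraMap R F (ζ i) * (c : F)) * (s : F)) +
            (algebraMap R F (ζ i) * algebraMap R F (ξ i) - 1) * ((c : F) * (s : F)) := by
        ring
      rw [e, hZ, sub_self, zero_mul, add_zero, hst]
      rfl
  obtain ⟨γ, hγ, hγ', hγx⟩ := exists_common_lift hC 𝔪 h𝔪 hn hε hε' (le_locAt C 𝔪 c.2) _ hX
  obtain ⟨y, hy, hyv⟩ := exists_avoid hC 𝔪
  have hprime : 𝔪.IsPrime := inferInstance
  have hRO : ∀ (i : ι) (r : R), algebraMap R F r ∈ 𝒪 i := fun i r =>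
    hC.le i _ (C.algebraMap_mem r)
  by_cases hγ0 : γ = 0
  · -- then no component passes through `𝔪`
    have hno : ∀ i, ¬ vertI (𝒪 i) C ≤ 𝔪 := by
      intro i hi
      obtain ⟨⟨s', hs', hxs'⟩, -, s, t, hs, ht, hst⟩ := hX i hi
      have h1 := hγx i hi
      rw [hγ0, zero_sub] at h1
      have h2 := Local_nonunits_neg h1
      rw [neg_neg] at h2
      have h3 : (⟨_, hxs'⟩ : C) ∈ 𝔪 :=
        hi ((mem_vertI (hC.le i) _).mpr (Local_nonunits_mul h2 (hC.le i _ s'.2)))
      have h4 : c * (s * s') = ⟨_, hxs'⟩ * s - t * s' := by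
        apply Subtype.ext
        simp only [MulMemClass.coe_mul, AddSubgroupClass.coe_sub]
        rw [← hst]
        ring
      have h5 : c * (s * s') ∈ 𝔪 := by
        rw [h4]
        exact 𝔪.sub_mem (𝔪.mul_mem_right _ h3) (𝔪.mul_mem_right _ ht)
      rcases hprime.mem_or_mem h5 with h | h
      · exact hc h
      · rcases hprime.mem_or_mem h with h | h
        · exact hs h
        · exact hs' h
    refine ⟨0, ?_, y, hy, fun i => ?_⟩
    · show (0 : F) ^ n * w ∈ C
      rw [zero_pow hn0.ne', zero_mul]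
      exact C.zero_mem
    · rw [zero_sub]
      apply Local_nonunits_neg
      rw [mul_comm]
      exact Local_nonunits_mul (hyv i (hno i)) (hRO i _)
  -- common denominator
  obtain ⟨s₁, hs₁, hεs⟩ := hε
  obtain ⟨s₂, hs₂, hγs⟩ := hγ
  obtain ⟨t, ht, hγt⟩ := hγ'
  have has : a * ((s₁ : F) * (s₂ : F)) ∈ rootSet C n w := by
    show (a * ((s₁ : F) * (s₂ : F))) ^ n * w ∈ C
    have e : (a * ((s₁ : F) * (s₂ : F))) ^ n * w =
        (a ^ n * w * (s₁ : F)) * ((s₁ : F) ^ (n - 1) * (s₂ : F) ^ n) := by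
      obtain ⟨m, rfl⟩ : ∃ m, n = m + 1 := ⟨n - 1, (Nat.sub_add_cancel hn0).symm⟩
      simp only [Nat.add_sub_cancel]
      ring
    rw [e]
    exact C.mul_mem hεs (C.mul_mem (C.pow_mem s₁.2 _) (C.pow_mem s₂.2 _))
  refine ⟨a * ((s₁ : F) * (s₂ : F)) * (y : F), ?_, ⟨_, hγs⟩ * s₁ * y, ?_, fun i => ?_⟩
  · show (a * ((s₁ : F) * (s₂ : F)) * (y : F)) ^ n * w ∈ C
    have e : (a * ((s₁ : F) * (s₂ : F)) * (y : F)) ^ n * w =
        ((a * ((s₁ : F) * (s₂ : F))) ^ n * w) * (y : F) ^ n := by ring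
    rw [e]
    exact C.mul_mem has (C.pow_mem y.2 _)
  · intro h
    rcases hprime.mem_or_mem h with h | h
    · rcases hprime.mem_or_mem h with h | h
      · have h1 : s₂ * t = ⟨_, hγs⟩ * ⟨_, hγt⟩ := by
          apply Subtype.ext
          simp only [MulMemClass.coe_mul]
          field_simp
        have h2 : s₂ * t ∈ 𝔪 := by
          rw [h1]
          exact 𝔪.mul_mem_right _ h
        rcases hprime.mem_or_mem h2 with h | h
        · exact hs₂ h
        · exact ht h
      · exact hs₁ h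
    · exact hy h
  · by_cases hi : vertI (𝒪 i) C ≤ 𝔪
    · have e : a * ((s₁ : F) * (s₂ : F)) * (y : F) -
          algebraMap R F (ζ i) * (((⟨_, hγs⟩ * s₁ * y : C) : C) : F) =
          ((a - x i) + -((γ - algebraMap R F (ξ i) * x i) * algebraMap R F (ζ i)) +
            (1 - algebraMap R F (ζ i) * algebraMap R F (ξ i)) * x i) *
            ((s₁ : F) * (s₂ : F) * (y : F)) := by
        simp only [MulMemClass.coe_mul]
        ring
      rw [e, hZ, sub_self, zero_mul, add_zero]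
      refine Local_nonunits_mul (Local_nonunits_add (hxa i hi)
        (Local_nonunits_neg (Local_nonunits_mul (hγx i hi) (hRO i _)))) ?_
      exact mul_mem (mul_mem (hC.le i _ s₁.2) (hC.le i _ s₂.2)) (hC.le i _ y.2)
    · have e : a * ((s₁ : F) * (s₂ : F)) * (y : F) -
          algebraMap R F (ζ i) * (((⟨_, hγs⟩ * s₁ * y : C) : C) : F) =
          (y : F) * (a * ((s₁ : F) * (s₂ : F)) - algebraMap R F (ζ i) * (γ * (s₂ : F) * (s₁ : F))) := by
        simp only [MulMemClass.coe_mul]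
        ring
      rw [e]
      refine Local_nonunits_mul (hyv i hi) (sub_mem ?_ ?_)
      · exact rootSet_subsetI hC.toSatChartI hn0 i (hw' i).2.2 (hw' i).2.1 has
      · exact mul_mem (hRO i _) (mul_mem (hC.le i _ hγs) (hC.le i _ s₁.2))

end Fermat.Agent.GT
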