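import Fermat.Agent.GT.Abs.Crux
import Fermat.Agent.GT.Abs.Local

/-! GT abstract part, file `Main`: THE MULTI-COMPONENT CRUX. -/

set_option autoImplicit false

namespace Fermat.Agent.GT

open Fermat.Agent.GR.E Fermat.Agent.GS

variable {R : Type*} [CommRing R] [IsDomain R] [IsDiscreteValuationRing R]
variable {F : Type*} [Field F] [Algebra R F] {ι : Type*}
variable {ϖ : R} {𝒪 : ι → ValuationSubring F}

/-- THE MULTI-COMPONENT CRUX. -/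
theorem multi_crux [Finite ι] [Nonempty ι] (hϖ : Irreducible ϖ) (hV : VertFam ϖ 𝒪)
    {h : F} (hh : ∀ i, h ∈ 𝒪 i) (hh' : ∀ i, h⁻¹ ∈ 𝒪 i) (h0 : h ≠ 0)
    (hC0 : MultiChart ϖ 𝒪 (chart R ({h} : Set F)))
    (hC1 : MultiChart ϖ 𝒪 (chart R ({h⁻¹} : Set F)))
    (hfin : Module.Finite (Algebra.adjoin R ({h} : Set F))
      (integralClosure (Algebra.adjoin R ({h} : Set F)) F))
    {n : ℕ} (hn : IsUnit (n : R)) {w : F} (hw : ∀ i, w - 1 ∈ (𝒪 i).nonunits)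
    (ζ : ι → R) (hζ : ∀ i, ϖ ∣ ζ i ^ n - 1)
    (hl0 : ∀ (𝔪 : Ideal (chart R ({h} : Set F))) (h𝔪 : 𝔪.IsMaximal), algebraMap R _ ϖ ∈ 𝔪 →
      haveI := h𝔪.isPrime; LocalTriv 𝒪 ζ (chart R ({h} : Set F)) n w 𝔪)
    (hl1 : ∀ (𝔪 : Ideal (chart R ({h⁻¹} : Set F))) (h𝔪 : 𝔪.IsMaximal), algebraMap R _ ϖ ∈ 𝔪 →
      haveI := h𝔪.isPrime; LocalTriv 𝒪 ζ (chart R ({h⁻¹} : Set F)) n w 𝔪) :
    ∃ a : F, a ≠ 0 ∧ a ^ n * w ∈ chart R ({h} : Set F) ∧ a ^ n * w ∈ chart R ({h⁻¹} : Set F) := by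
  obtain ⟨i₀⟩ := ‹Nonempty ι›
  have hfrac : ∀ x : F, ∃ b ∈ chart R ({h} : Set F), b ≠ 0 ∧ x * b ∈ chart R ({h} : Set F) := by
    intro x
    have hne : ∀ b : F, b ∉ (𝒪 i₀).nonunits → b ≠ 0 := by
      rintro b hb rfl
      exact hb (by rw [ValuationSubring.mem_nonunits_iff]; simp)
    rcases (𝒪 i₀).mem_or_inv_mem x with hx | hx
    · obtain ⟨b, hb, hb', hxb⟩ := hC0.frac i₀ x hx
      exact ⟨b, hb, hne b hb', hxb⟩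
    · obtain ⟨b, hb, hb', hxb⟩ := hC0.frac i₀ x⁻¹ hx
      by_cases hx0 : x = 0
      · exact ⟨b, hb, hne b hb', by simp [hx0, Subalgebra.zero_mem]⟩
      · refine ⟨x⁻¹ * b, hxb, mul_ne_zero (inv_ne_zero hx0) (hne b hb'), ?_⟩
        rw [← mul_assoc, mul_inv_cancel₀ hx0, one_mul]
        exact hb
  haveI : Nonempty ι := ⟨i₀⟩
  exact multi_crux_of_glue hϖ hV hh hh' h0 hC0.toSatChartI hC1.toSatChartI hfrac hfin hn hw ζ hζ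
    (fun 𝔪 h𝔪 hm => by
      haveI := h𝔪.isPrime
      exact glueAtI_of_localTriv hϖ hV hC0 𝔪 h𝔪 hn hw ζ hζ (hl0 𝔪 h𝔪 hm))
    (fun 𝔪 h𝔪 hm => by
      haveI := h𝔪.isPrime
      exact glueAtI_of_localTriv hϖ hV hC1 𝔪 h𝔪 hn hw ζ hζ (hl1 𝔪 h𝔪 hm))

end Fermat.Agent.GT
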