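import Fermat.Agent.GT.Abs.Zeta

/-! GT abstract part, file `One`: from local gluing to a global section `≡ ζ i`. -/

set_option autoImplicit false

namespace Fermat.Agent.GT

open Fermat.Agent.GR.E Fermat.Agent.GS

variable {R : Type*} [CommRing R] [IsDomain R] [IsDiscreteValuationRing R]
variable {F : Type*} [Field F] [Algebra R F] {ι : Type*}
variable {ϖ : R} {𝒪 : ι → ValuationSubring F}

theorem One_zero_mem (V : ValuationSubring F) : (0 : F) ∈ V.nonunits := by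
  rw [ValuationSubring.mem_nonunits_iff, map_zero]
  exact zero_lt_one

theorem One_add_mem {V : ValuationSubring F} {a b : F} (ha : a ∈ V.nonunits)
    (hb : b ∈ V.nonunits) : a + b ∈ V.nonunits := by
  rw [ValuationSubring.mem_nonunits_iff] at ha hb ⊢
  exact lt_of_le_of_lt (V.valuation.map_add _ _) (max_lt ha hb)

theorem One_mul_mem {V : ValuationSubring F} {c a : F} (hc : c ∈ V)
    (ha : a ∈ V.nonunits) : c * a ∈ V.nonunits := by
  rw [ValuationSubring.mem_nonunits_iff] at ha ⊢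
  rw [map_mul]
  exact lt_of_le_of_lt (mul_le_of_le_one_left' ((V.valuation_le_one_iff _).2 hc)) ha

theorem One_neg_mem {V : ValuationSubring F} {a : F} (ha : a ∈ V.nonunits) :
    -a ∈ V.nonunits := by
  rw [ValuationSubring.mem_nonunits_iff] at ha ⊢
  rwa [Valuation.map_neg]

theorem One_mem_of_nonunits {V : ValuationSubring F} {a : F} (ha : a ∈ V.nonunits) : a ∈ V := by
  rw [ValuationSubring.mem_nonunits_iff] at ha
  exact (V.valuation_le_one_iff _).1 ha.le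

theorem One_pow_mem {V : ValuationSubring F} {a : F} (ha : a ∈ V.nonunits) {k : ℕ}
    (hk : 0 < k) : a ^ k ∈ V.nonunits := by
  obtain ⟨j, rfl⟩ : ∃ j, k = j + 1 := ⟨k - 1, by omega⟩
  rw [pow_succ]
  exact One_mul_mem (V.pow_mem (One_mem_of_nonunits ha) j) ha

/-- `J = {e ∈ C : ∃ b ∈ I(C), ∀ i, b ≡ ζ i * e}` is an ideal of `C` which contains `ϖ` (take
`b = 0`) and is contained in no maximal ideal containing `ϖ`; so `1 ∈ J`. -/
theorem exists_oneI (hV : VertFam ϖ 𝒪) {C : Subalgebra R F} (hC : SatChartI ϖ 𝒪 C) {n : ℕ}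
    (hn : 0 < n) {w : F} (ζ : ι → R)
    (hglue : ∀ 𝔪 : Ideal C, 𝔪.IsMaximal → algebraMap R C ϖ ∈ 𝔪 → GlueAtI 𝒪 ζ C n w 𝔪) :
    ∃ b ∈ rootSet C n w, ∀ i, b - algebraMap R F (ζ i) ∈ (𝒪 i).nonunits := by
  have h0root : (0 : F) ∈ rootSet C n w := by
    show (0 : F) ^ n * w ∈ C
    rw [zero_pow hn.ne', zero_mul]
    exact C.zero_mem
  have hζ𝒪 : ∀ i, algebraMap R F (ζ i) ∈ 𝒪 i := fun i => hC.le i _ (C.algebraMap_mem _)
  let J : Ideal C :=
    { carrier := {e | ∃ b ∈ rootSet C n w, ∀ i, b - algebraMap R F (ζ i) * (e : F) ∈ (𝒪 i).nonunits}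
      add_mem' := by
        rintro e₁ e₂ ⟨b₁, hb₁, h₁⟩ ⟨b₂, hb₂, h₂⟩
        refine ⟨b₁ + b₂, rootSet_add hC.closed hn hb₁ hb₂, fun i => ?_⟩
        have : b₁ + b₂ - algebraMap R F (ζ i) * ((e₁ + e₂ : C) : F) =
            (b₁ - algebraMap R F (ζ i) * (e₁ : F)) + (b₂ - algebraMap R F (ζ i) * (e₂ : F)) := by
          push_cast; ring
        rw [this]
        exact One_add_mem (h₁ i) (h₂ i)
      zero_mem' := ⟨0, h0root, fun i => by simp [One_zero_mem (𝒪 i)]⟩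
      smul_mem' := by
        rintro c e ⟨b, hb, h⟩
        refine ⟨c * b, rootSet_mul c.2 hb, fun i => ?_⟩
        have : (c : F) * b - algebraMap R F (ζ i) * ((c • e : C) : F) =
            (c : F) * (b - algebraMap R F (ζ i) * (e : F)) := by
          rw [smul_eq_mul]; push_cast; ring
        rw [this]
        exact One_mul_mem (hC.le i _ c.2) (h i) }
  have hϖJ : algebraMap R C ϖ ∈ J := by
    refine ⟨0, h0root, fun i => ?_⟩
    rw [zero_sub]
    exact One_neg_mem (One_mul_mem (hζ𝒪 i) (hV.mem i))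
  have hJ : J = ⊤ := by
    by_contra hne
    obtain ⟨𝔪, h𝔪, hle⟩ := Ideal.exists_le_maximal J hne
    obtain ⟨b, hb, e, he, h⟩ := hglue 𝔪 h𝔪 (hle hϖJ)
    exact he (hle ⟨b, hb, h⟩)
  have h1 : (1 : C) ∈ J := by rw [hJ]; trivial
  obtain ⟨b, hb, h⟩ := h1
  exact ⟨b, hb, fun i => by simpa using h i⟩

/-- binomial expansion up to order two -/
theorem One_binom {A : Type*} [CommRing A] (z : A) (n : ℕ) :
    ∃ d : A, (1 + z) ^ n = 1 + n * z + z ^ 2 * d := by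
  induction n with
  | zero => exact ⟨0, by simp⟩
  | succ n ih =>
    obtain ⟨d, hd⟩ := ih
    refine ⟨n + d + z * d, ?_⟩
    rw [pow_succ, hd]
    push_cast
    ring

/-- the Newton identity in a commutative ring -/
theorem One_newton {A : Type*} [CommRing A] (y u : A) (n : ℕ) (hu : (n : A) * u = 1) :
    ∃ c : A, (1 + y) * (1 - y * u) ^ n - 1 = y ^ 2 * c := by
  obtain ⟨d, hd⟩ := One_binom (-(y * u)) n
  refine ⟨-1 + (1 + y) * (u ^ 2 * d), ?_⟩
  have h1 : (1 - y * u) ^ n = 1 - y + y ^ 2 * (u ^ 2 * d) := by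
    rw [sub_eq_add_neg, hd]
    linear_combination (-y) * hu
  rw [h1]
  ring

/-- One Newton step: if `y = b ^ n * w - 1` then `b' = b * (1 - y / n)` satisfies
`b' ^ n * w - 1 = y ^ 2 * c` with `c ∈ C` (a polynomial in `y` and `1 / n`). -/
theorem newton_stepI {C : Subalgebra R F} {n : ℕ} (hn : IsUnit (n : R)) {w b : F}
    (hb : b ∈ rootSet C n w) :
    ∃ b' ∈ rootSet C n w, ∃ c ∈ C, ∃ c' ∈ C, b' ^ n * w - 1 = (b ^ n * w - 1) ^ 2 * c ∧
      b' - b = b * (b ^ n * w - 1) * c' := by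
  obtain ⟨v, hv⟩ := hn.exists_right_inv
  let y : C := ⟨b ^ n * w, hb⟩ - 1
  let u : C := algebraMap R C v
  have hu : (n : C) * u = 1 := by
    have := congrArg (algebraMap R C) hv
    simpa using this
  obtain ⟨c, hc⟩ := One_newton y u n hu
  have hyF : (y : F) = b ^ n * w - 1 := rfl
  have hcF : (1 + (y : F)) * (1 - (y : F) * (u : F)) ^ n - 1 = (y : F) ^ 2 * (c : F) := by
    have := congrArg (Subtype.val : C → F) hc
    simpa using this
  have hmem : (1 - (y : F) * (u : F)) ∈ C := (1 - y * u : C).2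
  refine ⟨(1 - (y : F) * (u : F)) * b, rootSet_mul hmem hb, c, c.2, -u, (-u : C).2, ?_, ?_⟩
  · rw [← hyF, ← hcF, mul_pow]
    have : (1 : F) + (y : F) = b ^ n * w := by rw [hyF]; ring
    rw [this]
    ring
  · rw [← hyF]
    push_cast
    ring

/-- Newton refinement.  `y₀ = b ^ n * w - 1` lies in all `𝔪(𝒪 i)`, so `y₀ ^ e / ϖ ∈ C` by `nilp`
and `sat`; after `k` Newton steps `y_k ∈ y₀ ^ (2 ^ k) C`. -/
theorem exists_one_powI (hV : VertFam ϖ 𝒪) {C : Subalgebra R F} (hC : SatChartI ϖ 𝒪 C) {n : ℕ}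
    (hn : IsUnit (n : R)) {w : F} (hw : ∀ i, w - 1 ∈ (𝒪 i).nonunits) (ζ : ι → R)
    (hζ : ∀ i, ϖ ∣ ζ i ^ n - 1)
    (hglue : ∀ 𝔪 : Ideal C, 𝔪.IsMaximal → algebraMap R C ϖ ∈ 𝔪 → GlueAtI 𝒪 ζ C n w 𝔪)
    (m : ℕ) :
    ∃ b ∈ rootSet C n w, (∀ i, b - algebraMap R F (ζ i) ∈ (𝒪 i).nonunits) ∧
      (b ^ n * w - 1) / algebraMap R F ϖ ^ m ∈ C := by
  have hπ0 : algebraMap R F ϖ ≠ 0 := hV.ne_zero
  have hn0 : 0 < n := by
    rcases Nat.eq_zero_or_pos n with rfl | h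
    · simp at hn
    · exact h
  have hζ𝒪 : ∀ i, algebraMap R F (ζ i) ∈ 𝒪 i := fun i => hC.le i _ (C.algebraMap_mem _)
  obtain ⟨b₀, hb₀, hb₀ζ⟩ := exists_oneI hV hC hn0 ζ hglue
  set y₀ : F := b₀ ^ n * w - 1 with hy₀
  have hy₀C : y₀ ∈ C := C.sub_mem hb₀ C.one_mem
  -- elements congruent to `ζ i` are integral
  have hint : ∀ (b : F) (i : ι), b - algebraMap R F (ζ i) ∈ (𝒪 i).nonunits → b ∈ 𝒪 i := by
    intro b i h
    have : b = (b - algebraMap R F (ζ i)) + algebraMap R F (ζ i) := by ring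
    rw [this]
    exact (𝒪 i).add_mem _ _ (One_mem_of_nonunits h) (hζ𝒪 i)
  -- `y₀` is a nonunit everywhere
  have hy₀non : ∀ i, y₀ ∈ (𝒪 i).nonunits := by
    intro i
    have hb𝒪 := hint b₀ i (hb₀ζ i)
    -- `b₀ ^ n - ζ ^ n` is a multiple of `b₀ - ζ`
    obtain ⟨q, hq𝒪, hq⟩ : ∃ q ∈ 𝒪 i, b₀ ^ n - algebraMap R F (ζ i) ^ n =
        q * (b₀ - algebraMap R F (ζ i)) := by
      refine ⟨∑ j ∈ Finset.range n, b₀ ^ j * algebraMap R F (ζ i) ^ (n - 1 - j), ?_, ?_⟩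
      · exact sum_mem fun j _ => (𝒪 i).mul_mem _ _ ((𝒪 i).pow_mem hb𝒪 _) ((𝒪 i).pow_mem (hζ𝒪 i) _)
      · exact ((Commute.all b₀ (algebraMap R F (ζ i))).geom_sum₂_mul n).symm
    have hζn : algebraMap R F (ζ i) ^ n - 1 ∈ (𝒪 i).nonunits :=
      zeta_pow_sub_one_mem (fun r => hC.le i _ (C.algebraMap_mem r)) (hV.mem i) (hζ i)
    have hw𝒪 : w ∈ 𝒪 i := by
      have : w = (w - 1) + 1 := by ring
      rw [this]
      exact (𝒪 i).add_mem _ _ (One_mem_of_nonunits (hw i)) (𝒪 i).one_mem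
    have : y₀ = (w * (b₀ ^ n - algebraMap R F (ζ i) ^ n) +
        w * (algebraMap R F (ζ i) ^ n - 1)) + (w - 1) := by rw [hy₀]; ring
    rw [this, hq]
    exact One_add_mem (One_add_mem (One_mul_mem hw𝒪 (One_mul_mem hq𝒪 (hb₀ζ i)))
      (One_mul_mem hw𝒪 hζn)) (hw i)
  -- `y₀ ^ e = ϖ * c₀`
  obtain ⟨e, he⟩ := hV.nilp
  have hc₀ : y₀ ^ e / algebraMap R F ϖ ∈ C :=
    hC.sat _ (C.pow_mem hy₀C e) (fun i => he i y₀ (hy₀non i))
  -- iterate Newton
  have hiter : ∀ k : ℕ, ∃ b ∈ rootSet C n w, (∀ i, b - algebraMap R F (ζ i) ∈ (𝒪 i).nonunits) ∧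
      ∃ c ∈ C, b ^ n * w - 1 = y₀ ^ (2 ^ k) * c := by
    intro k
    induction k with
    | zero => exact ⟨b₀, hb₀, hb₀ζ, 1, C.one_mem, by simp [hy₀]⟩
    | succ k ih =>
      obtain ⟨b, hb, hbζ, c, hc, hbc⟩ := ih
      obtain ⟨b', hb', c₁, hc₁, c', hc', h1, h2⟩ := newton_stepI hn hb
      refine ⟨b', hb', fun i => ?_, c ^ 2 * c₁, C.mul_mem (C.pow_mem hc 2) hc₁, ?_⟩
      · have : b' - algebraMap R F (ζ i) = (b * c * c') * y₀ ^ (2 ^ k) +
            (b - algebraMap R F (ζ i)) := by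
          have : b' = b + b * (b ^ n * w - 1) * c' := by rw [← h2]; ring
          rw [this, hbc]; ring
        rw [this]
        refine One_add_mem (One_mul_mem ?_ (One_pow_mem (hy₀non i) (by positivity))) (hbζ i)
        exact (𝒪 i).mul_mem _ _ ((𝒪 i).mul_mem _ _ (hint b i (hbζ i)) (hC.le i _ hc))
          (hC.le i _ hc')
      · rw [h1, hbc, pow_succ 2 k, pow_mul]
        ring
  obtain ⟨b, hb, hbζ, c, hc, hbc⟩ := hiter (e * m)
  refine ⟨b, hb, hbζ, ?_⟩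
  have hlt : e * m ≤ 2 ^ (e * m) := Nat.lt_two_pow_self.le
  obtain ⟨r, hr⟩ := Nat.exists_eq_add_of_le hlt
  have : (b ^ n * w - 1) / algebraMap R F ϖ ^ m =
      (y₀ ^ e / algebraMap R F ϖ) ^ m * (y₀ ^ r * c) := by
    rw [hbc, hr, pow_add, pow_mul, div_pow]
    field_simp
  rw [this]
  exact C.mul_mem (C.pow_mem hc₀ m) (C.mul_mem (C.pow_mem hy₀C r) hc)

end Fermat.Agent.GT
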